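import Mathlib
import Fermat.Agent.LT.T7.Level2

/-!
# Row LT, tower T7, node T7.L2.2 = `SpecUpC` (sub-architect helper561): THE CUT (v0.1)

OFF-MAIN.  Definitions, frozen Props of the sub-nodes / leaves, PROVED top.  Every proof is complete, nothing
assumed.  ADDITIVE (new names only, all ending in `561`).  Vocabulary: A0, `T5/Spec.lean`,
`T7/Level2.lean` of helper797@819237e8b (sha256 1551664660339642).

    specUpCS_of561 : AsmC561 K K' → StfC561 K K' → BlocksC561 K K' → NonVanC561 K K'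
                       → ChangeC561 K' → AtomsC561 → SpecUpCS561 K K'
    specUpC_of561  : (∀ ℓ Φ Dt, IsL2Data ℓ Φ Dt → BaseStable561 Dt) → SpecUpCS561 K K'
                       → SpecUpC K K'

## RULING NEEDED (architect helper797): `BaseStable561`

`IsL2Data` does not record that the BASE level `𝔑₀` is `σ`-stable (`IsCompData.aut` gives it for
the levels `𝔑_g` only).  Without it `R(σ)` does not preserve the invariant cusp functions of the
base level and (OP-up) cannot be applied to `R(σ) e`.  The supplier constructs a `σ`-stable base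
level (extended from `K`), so the field is free for `SupplyC`: `SpecUpCS561` is `SpecUpC` with
the extra hypothesis `BaseStable561 Dt`.

## The nodes and leaves

* **`StfC561`** (INPUT from tower T5): `T5.STFsigma` for the data of the comparison (a field of
  `T5.Tower`; the hypothesis `hT'` of `T7.specIdC_of`).  Used for the ABSOLUTE summability of the
  diagonal coefficients only.
* **`AtomsC561`** (LEAF, Mathlib only; from the assets `T7/H402/TraceAtomsMatrix.lean`
  (`twistedTraceAtomsMatrix402`) and `T7/H822/RegParam.lean` (`regParam_of_eigen822`)): on a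
  finite-dimensional block with an abstract Iwahori--Hecke structure along the orbit
  (`IsIwBlock561`), `tr (B Z^k 𝒰^m A) = ∑_a t_a b_a^k λ_a^m` for ALL `k ∈ ℤ`, `m ∈ ℕ`, with
  `IsRegParam (√q) b_a λ_a` and `t_a = 0` or `t_a = (Qᴴ (B A) Q)_{aa}` for ONE unitary `Q`.
* **`ChangeC561`** (LEAF, vocabulary of T5 only): a complete orthonormal sequence of cusp
  functions stays one under a unitary change inside finite blocks, and the diagonal coefficients
  of `R(φ) R(σ)` transform as `(Qᴴ M Q)_{aa}`.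
* **`BlocksC561`** (NODE; T2 + Iwahori--Hecke algebra + OP-up / KILL-up / PROJ-up): for every bad
  `g` a complete orthonormal sequence `e₀` of level `𝔑_g` and a family of finite BLOCKS
  (= the `σ`-stable classes of joint eigenfunctions among the invariant cusp functions of the
  base level, one block per class, the block is an orthonormal basis of the WHOLE class) with
  the matrices `A` of `R(σ)`, `B` of `c_g(C) [U g U]`, `S_j`, `ρ_j` of the generators of the
  Iwahori--Hecke algebras along the orbit (`𝒰 = q^{-1/2} S ρ`, `Z = ρ²` at `o 0`), such that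
  `⟨R(φ' g X k m) R(σ) e_a, e_b⟩ = X(C) (B Z^k 𝒰^m A)_{ba}` inside a block and the diagonal
  coefficients outside the blocks vanish; the class of `Φ` is a block.
* **`NonVanC561`** (NODE; multiplicity one in module form + Burnside + regular trace, assets
  helper963 / helper616 / helper822 / helper11): for some bad `g` and some `(k, m)` the twisted
  trace of `R(φ' g [] k m) R(σ)` on the class of `Φ` is not `0` (in every orthonormal basis of
  the class).
* **`AsmC561`** (LEAF: the assembly; pure bookkeeping with `tsum` over `Σ i, Fin (n i)`):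
  the five Props above give `SpecUpCS561`.  Proof sketch in the docstring.
-/

set_option autoImplicit false

open AutomorphicForm IsDedekindDomain NumberField MeasureTheory
open scoped ComplexConjugate Matrix

noncomputable section

namespace Fermat.Agent.LT.T7.H561

open Fermat.Agent.LT.H556 Fermat.Agent.LT.H556.A0 Fermat.Agent.LT.T7

attribute [local instance] Fermat.Agent.LT.T5.instMeasurableSpaceG

/-! ## 1. The abstract block (Mathlib only) -/

/-- **The abstract Iwahori--Hecke structure of a block along the orbit.**  `A` = the matrix of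
`R(σ)`, `B` = the matrix of the operator at the bad places, `S j` = the matrix of the operator
of `I s I` at the place `o j`, `ρ j` = the matrix of the translation by the normaliser of `I` at
`o j` (in an orthonormal basis: `S j` hermitian, `ρ j` unitary), `q` = the norm of the places
of the orbit, `ℓ` = the length of the orbit. -/
structure IsIwBlock561 {n : ℕ} (ℓ : ℕ) (q : ℝ) (A B : Matrix (Fin n) (Fin n) ℂ)
    (S ρ : ℕ → Matrix (Fin n) (Fin n) ℂ) : Prop where
  S_herm : ∀ j, (S j)ᴴ = S j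
  S_quad : ∀ j, S j * S j = ((q : ℂ) - 1) • S j + (q : ℂ) • (1 : Matrix (Fin n) (Fin n) ℂ)
  ρ_unit : ∀ j, (ρ j)ᴴ * ρ j = 1
  ρ_central : ∀ j, (ρ j * ρ j) * S j = S j * (ρ j * ρ j)
  A_S : ∀ j, A * S j = S (j + 1) * A
  A_ρ : ∀ j, A * ρ j = ρ (j + 1) * A
  per_S : ∀ j, S (j + ℓ) = S j
  per_ρ : ∀ j, ρ (j + ℓ) = ρ j
  comm_SS : ∀ j j', j < ℓ → j' < ℓ → j ≠ j' → S j * S j' = S j' * S j
  comm_Sρ : ∀ j j', j < ℓ → j' < ℓ → j ≠ j' → S j * ρ j' = ρ j' * S j
  comm_ρρ : ∀ j j', j < ℓ → j' < ℓ → j ≠ j' → ρ j * ρ j' = ρ j' * ρ j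
  B_S : ∀ j, B * S j = S j * B
  B_ρ : ∀ j, B * ρ j = ρ j * B

/-- **LEAF T7.L2.2.A = ATOMS (abstract, Mathlib only).**  On a block with an abstract
Iwahori--Hecke structure along the orbit the twisted traces at the regular place are finite sums
of atoms, ONE atom for each vector of ONE orthonormal basis (`Q` unitary), valid for ALL
`k ∈ ℤ`, `m ∈ ℕ`:
`tr (B (ρ₀²)^k (q^{-1/2} S₀ ρ₀)^m A) = ∑_a t_a b_a^k λ_a^m`, `IsRegParam (√q) b_a λ_a`,
`t_a = 0` or `t_a = (Qᴴ (B A) Q)_{aa}`.
Proof.  `twistedTraceAtomsMatrix402` (asset helper402, `T7/H402/TraceAtomsMatrix.lean`) for the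
commuting family `𝒰_j = S_j ρ_j`, `Z_j = ρ_j²`, `Z_j⁻¹` (`j ∈ Fin ℓ`), the shift `j ↦ j + 1`
and `T = B A` (`T 𝒰_j = 𝒰_{j+1} T`); `tr (B Z₀^k 𝒰₀^m A) = tr (B A Z_{ℓ-1}^k 𝒰_{ℓ-1}^m)`
(`A Z_{ℓ-1} = Z_ℓ A = Z_0 A`); for `t_a ≠ 0` the character is shift-invariant and is the
character of a joint eigenvector `x`: `regParam_of_eigen822` (asset helper822,
`T7/H822/RegParam.lean`) on `EuclideanSpace ℂ (Fin n)` gives
`IsRegParam (√q) (χ Z₀) (χ 𝒰₀ / √q)`; for `t_a = 0` take `(b, λ) = (1, 1)`. -/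
def AtomsC561 : Prop :=
  ∀ (n ℓ : ℕ) (q : ℝ) (A B : Matrix (Fin n) (Fin n) ℂ) (S ρ : ℕ → Matrix (Fin n) (Fin n) ℂ),
    0 < ℓ → 1 ≤ q → IsIwBlock561 ℓ q A B S ρ →
    ∃ (Q : Matrix (Fin n) (Fin n) ℂ) (t b l : Fin n → ℂ),
      Q ∈ Matrix.unitaryGroup (Fin n) ℂ ∧
      (∀ a, t a = 0 ∨ t a = (Qᴴ * (B * A) * Q) a a) ∧
      (∀ a, IsRegParam (Real.sqrt q) (b a) (l a)) ∧
      ∀ (k : ℤ) (m : ℕ),
        Matrix.trace (B * (ρ 0 * ρ 0) ^ k * (((Real.sqrt q : ℝ) : ℂ)⁻¹ • (S 0 * ρ 0)) ^ m * A)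
          = ∑ a, t a * b a ^ k * l a ^ m

/-! ## 2. The change of basis inside the blocks (vocabulary of T5) -/

section Change

variable (K' : Type) [Field K'] [NumberField K']

/-- **LEAF T7.L2.2.C = CHANGE (unitary change inside finite blocks).**  Let `e₀` be a complete
orthonormal sequence of cusp functions (zero vectors allowed), `idx i a` (`a : Fin (n i)`) the
indices of pairwise disjoint finite blocks of vectors of norm `1`, `Q i` unitary matrices.  Then
the sequence `e'` with `e' (idx i a) = ∑_b (Q i)_{ba} e₀ (idx i b)` and `e' k = e₀ k` outside the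
blocks is a complete orthonormal sequence of cusp functions, and for every test function `φ`
`⟨R(φ) R(σ) e'_a, e'_a⟩ = ∑_{b,c} conj (Q i)_{ca} ⟨R(φ) R(σ) e₀_b, e₀_c⟩ (Q i)_{ba}`.
Proof.  Cusp functions are stable under finite linear combinations (the constant term is an
integral of a bounded continuous function over a fundamental domain of finite measure);
orthonormality: `Qᴴ Q = 1`; completeness: `∑_a |⟨f, e'_a⟩|² = ∑_a |⟨f, e₀_a⟩|²` in each block
and regrouping of a series with non-negative terms; the formula: `R(σ)`, `R(φ)` (`φ` continuous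
with compact support, the functions continuous) and `⟨ , ⟩` (bounded continuous functions on a
set of finite measure) are additive. -/
def ChangeC561 : Prop :=
  ∀ (s : T5.AdelicAut K') (𝔫 : Ideal (𝓞 K')) (μ : Measure (G K')) (F : Set (G K')) (r : G K'),
    T5.IsFrame μ F → T5.IsRayGen r → T5.AutPreserves s 𝔫 μ r →
    ∀ e₀ : ℕ → G K' → ℂ, T5.IsCuspONB 𝔫 T5.trivType r μ F e₀ →
    ∀ (ι : Type) (n : ι → ℕ) (idx : (i : ι) → Fin (n i) → ℕ),
      (∀ (i : ι) (a : Fin (n i)) (i' : ι) (a' : Fin (n i')), idx i a = idx i' a' →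
        (⟨i, a⟩ : Σ i, Fin (n i)) = ⟨i', a'⟩) →
      (∀ (i : ι) (a : Fin (n i)), T5.innerD μ F (e₀ (idx i a)) (e₀ (idx i a)) = 1) →
    ∀ Q : (i : ι) → Matrix (Fin (n i)) (Fin (n i)) ℂ,
      (∀ i, Q i ∈ Matrix.unitaryGroup (Fin (n i)) ℂ) →
    ∃ e' : ℕ → G K' → ℂ, T5.IsCuspONB 𝔫 T5.trivType r μ F e' ∧
      (∀ k : ℕ, (∀ (i : ι) (a : Fin (n i)), idx i a ≠ k) → e' k = e₀ k) ∧
      (∀ (i : ι) (a : Fin (n i)), e' (idx i a) = fun x => ∑ b, Q i b a * e₀ (idx i b) x) ∧
      ∀ φ : G K' → ℂ, T5.IsTestFn 𝔫 T5.trivType φ → ∀ (i : ι) (a : Fin (n i)),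
        T5.diagCoeff s μ F φ (e' (idx i a))
          = ∑ b, ∑ c, conj (Q i c a)
              * T5.innerD μ F (T5.Rconv μ φ (T5.Rsig s (e₀ (idx i b)))) (e₀ (idx i c))
              * Q i b a

end Change

/-! ## 3. The blocks -/

section Blocks

variable (K K' : Type) [Field K] [NumberField K] [Field K'] [NumberField K'] [Algebra K K']

/-- A family of finite blocks with their matrices. -/
structure Blocks561 where
  /-- the index set of the blocks (the `σ`-stable classes) -/
  ι : Type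
  /-- the dimension of the block -/
  n : ι → ℕ
  /-- the indices of the vectors of the block in the orthonormal sequence -/
  idx : (i : ι) → Fin (n i) → ℕ
  /-- the joint eigen-data of the block -/
  C : ι → EigData K'
  /-- the matrix of `R(σ)` -/
  A : (i : ι) → Matrix (Fin (n i)) (Fin (n i)) ℂ
  /-- the matrix of `c_g(C) [U g U]` -/
  B : (i : ι) → Matrix (Fin (n i)) (Fin (n i)) ℂ
  /-- the matrices of the operators of `I s I` along the orbit -/
  S : (i : ι) → ℕ → Matrix (Fin (n i)) (Fin (n i)) ℂ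
  /-- the matrices of the translations by the normalisers of `I` along the orbit -/
  ρ : (i : ι) → ℕ → Matrix (Fin (n i)) (Fin (n i)) ℂ

variable {K K'}

/-- **The base level is `σ`-stable** (see the header: ruling needed). -/
def BaseStable561 (Dt : L2Data K K') : Prop :=
  ∀ u : G K', InLevelGroup Dt.𝔑₀ u ↔ InLevelGroup Dt.𝔑₀ (Dt.s.onG u)

/-- `v` is an orthonormal basis of the class of `C`: the invariant cusp functions of the base
level with joint eigen-data `C` outside `S'`. -/
structure IsClassBasis561 (Dt : L2Data K K') (ℓ : ℕ) (C : EigData K') (n : ℕ)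
    (v : Fin n → G K' → ℂ) : Prop where
  eig : ∀ a, IsEigFn Dt.𝔑₀ Dt.R'.r ℓ Dt.o (v a) C
  orth : ∀ a b, T5.innerD Dt.R'.μ Dt.R'.F (v a) (v b) = if a = b then 1 else 0
  span : ∀ (ψ : G K' → ℂ) (C' : EigData K'), IsEigFn Dt.𝔑₀ Dt.R'.r ℓ Dt.o ψ C' →
    C'.AgreeOut Dt.S' C → ∃ c : Fin n → ℂ, ∀ x : G K', ψ x = ∑ a, c a * v a x

/-- The properties of the blocks for the bad element `g` in the complete orthonormal sequence
`e₀`. -/
structure IsBlocks561 (ℓ : ℕ) (Φ : HeckeEigensystem K' ℂ) (Dt : L2Data K K') (g : G K')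
    (e₀ : ℕ → G K' → ℂ) (𝔅 : Blocks561 K') : Prop where
  onb : T5.IsCuspONB (Dt.𝔑 g) T5.trivType Dt.R'.r Dt.R'.μ Dt.R'.F e₀
  inj : ∀ (i : 𝔅.ι) (a : Fin (𝔅.n i)) (i' : 𝔅.ι) (a' : Fin (𝔅.n i')),
    𝔅.idx i a = 𝔅.idx i' a' → (⟨i, a⟩ : Σ i, Fin (𝔅.n i)) = ⟨i', a'⟩
  unitary : ∀ i, (𝔅.C i).IsUnitaryOut Dt.S'
  distinct : ∀ i i', (𝔅.C i).AgreeOut Dt.S' (𝔅.C i') → i = i'
  basis : ∀ i, IsClassBasis561 Dt ℓ (𝔅.C i) (𝔅.n i) (fun a => e₀ (𝔅.idx i a))
  phi : ∃ i, (𝔅.C i).AgreeOut Dt.S' (eigOf Φ)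
  iw : ∀ i, IsIwBlock561 ℓ ((Ideal.absNorm (Dt.o 0).asIdeal : ℕ) : ℝ)
    (𝔅.A i) (𝔅.B i) (𝔅.S i) (𝔅.ρ i)
  /-- the matrix coefficients inside a block -/
  coeff : ∀ X : List (Gen K'), (∀ x ∈ X, x.Out Dt.S') →
    ∀ (k : ℤ) (m : ℕ) (i : 𝔅.ι) (a b : Fin (𝔅.n i)),
      T5.innerD Dt.R'.μ Dt.R'.F
          (T5.Rconv Dt.R'.μ (Dt.φ' g X k m) (T5.Rsig Dt.s (e₀ (𝔅.idx i a))))
          (e₀ (𝔅.idx i b))
        = wordEv X (𝔅.C i)
          * (𝔅.B i * (𝔅.ρ i 0 * 𝔅.ρ i 0) ^ k
              * (((Real.sqrt ((Ideal.absNorm (Dt.o 0).asIdeal : ℕ) : ℝ) : ℝ) : ℂ)⁻¹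
                  • (𝔅.S i 0 * 𝔅.ρ i 0)) ^ m
              * 𝔅.A i) b a
  /-- the diagonal coefficients outside the blocks vanish -/
  off : ∀ X : List (Gen K'), (∀ x ∈ X, x.Out Dt.S') → ∀ (k : ℤ) (m : ℕ) (j : ℕ),
    (∀ (i : 𝔅.ι) (a : Fin (𝔅.n i)), 𝔅.idx i a ≠ j) →
    T5.diagCoeff Dt.s Dt.R'.μ Dt.R'.F (Dt.φ' g X k m) (e₀ j) = 0

variable (K K')

/-- **INPUT from tower T5**: the twisted trace identity for the data of the comparison (the
field `stf` of `T5.Tower`, hypothesis `hT'` of `T7.specIdC_of`). -/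
def StfC561 : Prop :=
  ∀ D : CompData K K', IsCompData D → T5.STFsigma D.s D.𝔑 T5.trivType

/-- **NODE T7.L2.2.B = BLOCKS.**  See the header.
Proof (sketch; to be cut).  (1) `T2` (`cuspSpecPlus_closed`, `finite_class130`): the cusp
functions of level `𝔑₀` have an orthonormal basis of joint eigenfunctions of the Hecke operators
outside `S'` and of the sphere means, the classes have finite dimension; the projector on the
functions invariant under the positive scalars at infinity and the Iwahori subgroups along the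
orbit commutes with these operators: orthonormal bases of the classes of the INVARIANT cusp
functions, the eigen-data of a class normalised at the places of `S'` and the radii `d ≤ 0`.
(2) Complete by an orthonormal basis of the orthogonal complement in the cusp functions of level
`𝔑_g` (PROJ-up, `T5.CuspONBExistsC`, Gram--Schmidt).  (3) `R(σ)` preserves the invariant cusp
functions of the base level (`BaseStable561`, `IsCompData.aut`, orbit) and moves the eigen-data
by `σ` (asset helper930 `T7/H930/RsigOps.lean`); the blocks are the classes with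
`C ∘ σ ∼ C`; the class of `Φ` is one (`ConstOnFibres`, `orbit_good`, `level_le`).  (4) On a
block: OP-up for `ψ = R(σ) e_a`; the operators `[U g U]`, `Z`, `𝒰` preserve the classes; matrices
in the basis of the block.  (5) Outside the blocks: KILL-up and the range of `R(φ')` (in the
invariant functions) for the complement; `R(σ) e ⊥ ` class of `e` for a class which is not
stable.  (6) Iwahori--Hecke relations at `o j`: `S_j` = the operator of `I s I`, `ρ_j` = the
translation by `!![0, 1; ϖ, 0]`, `I t I = I s I · ω`, `S² = (q-1) S + q`, `ρ²` = the scalar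
uniformiser; adjoints for the inner product on the fundamental domain; `R(σ)` moves the place
`o j` to `o (j+1)`. -/
def BlocksC561 : Prop :=
  ∀ ℓ : ℕ, IsCycExt K K' ℓ → ℓ ≠ 2 → TotCplx K →
    ∀ Φ : HeckeEigensystem K' ℂ, A0.IsCuspAdelicSph0 K' Φ → ConstOnFibres K Φ →
      ∀ Dt : L2Data K K', IsL2Data ℓ Φ Dt → BaseStable561 Dt →
      ∀ g : G K', Dt.IsBad g →
        ∃ (e₀ : ℕ → G K' → ℂ) (𝔅 : Blocks561 K'), IsBlocks561 ℓ Φ Dt g e₀ 𝔅

/-- **NODE T7.L2.2.N = NON-VANISHING.**  For some bad `g` and some `(k, m)` the twisted trace of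
`R(φ' g [] k m) R(σ)` on the class of `Φ` does not vanish.
Proof (sketch).  The class `V` of `Φ` is not `0` (the form of `Φ`), stable under `R(σ)`, and a
simple module under the Hecke algebra of the places of `S'` (multiplicity one in module form:
asset helper963 `H963/Cyclic.lean` from `T2.H941.MatchC`; Burnside); by OP-up the operators
`c_g [U g U] Z^k 𝒰^m` are in the image; orbit formula + regular trace (assets helper616
`T7/H616/RegTrace.lean`, `RegTrace2.lean`, helper822 `T7/H822/TwNV.lean`, helper11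
`T7/H11/TwTrace.lean`); `c_g ≠ 0` on the class of `Φ` (`base_ne`). -/
def NonVanC561 : Prop :=
  ∀ ℓ : ℕ, IsCycExt K K' ℓ → ℓ ≠ 2 → TotCplx K →
    ∀ Φ : HeckeEigensystem K' ℂ, A0.IsCuspAdelicSph0 K' Φ → ConstOnFibres K Φ →
      ∀ Dt : L2Data K K', IsL2Data ℓ Φ Dt → BaseStable561 Dt →
      ∃ (g : G K') (k : ℤ) (m : ℕ), Dt.IsBad g ∧
        ∀ (C : EigData K') (n : ℕ) (v : Fin n → G K' → ℂ),
          C.AgreeOut Dt.S' (eigOf Φ) → IsClassBasis561 Dt ℓ C n v →
          (∑ a, T5.innerD Dt.R'.μ Dt.R'.F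
              (T5.Rconv Dt.R'.μ (Dt.φ' g [] k m) (T5.Rsig Dt.s (v a))) (v a)) ≠ 0

/-- **`SpecUpC` for a `σ`-stable base level.** -/
def SpecUpCS561 : Prop :=
  ∀ ℓ : ℕ, IsCycExt K K' ℓ → ℓ ≠ 2 → TotCplx K →
    ∀ Φ : HeckeEigensystem K' ℂ, A0.IsCuspAdelicSph0 K' Φ → ConstOnFibres K Φ →
      ∀ Dt : L2Data K K', IsL2Data ℓ Φ Dt → BaseStable561 Dt →
      ∃ (g : G K') (e' : ℕ → G K' → ℂ) (ι' : Type) (C : ι' → EigData K') (b' l' : ι' → ℂ)
        (R : ℝ) (y : ι' → ℂ),
        Dt.IsBad g ∧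
        T5.IsCuspONB (Dt.𝔑 g) T5.trivType Dt.R'.r Dt.R'.μ Dt.R'.F e' ∧
        Summable (fun j => ‖y j‖) ∧ (∀ j, (C j).IsUnitaryOut Dt.S') ∧
        (∀ j, IsRegParam R (b' j) (l' j)) ∧
        (∀ X : List (Gen K'), (∀ x ∈ X, x.Out Dt.S') → ∀ (k : ℤ) (m : ℕ), Dt.m₀ g X ≤ m →
          specSide Dt.s Dt.R' e' (Dt.φ' g X k m)
            = ∑' j, wordEv X (C j) * y j * b' j ^ k * l' j ^ m) ∧
        ∃ b₀ l₀ : ℂ,
          (∑' j : {j : {j : ι' // b' j = b₀ ∧ l' j = l₀} //
              (C j.1).AgreeOut Dt.S' (eigOf Φ)}, y j.1.1) ≠ 0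

/-- **LEAF T7.L2.2.Z = ASSEMBLY.**
Proof.  `g, k₀, m₀` from `NonVanC561`; `e₀, 𝔅` from `BlocksC561` for this `g`; `Q i, t i, b i,
l i` from `AtomsC561` for every block (`q = N(o 0) ≥ 1`, `0 < ℓ`); `e'` from `ChangeC561`
(frame, ray, `aut` from `IsL2Data.comp g`; norm `1` from `basis.orth`).  Atoms:
`ι' = Σ i, Fin (n i)`, `C ⟨i, a⟩ = C i`, `y ⟨i, a⟩ = t i a`, `b' = b i a`, `l' = l i a`,
`R = √q`.  Diagonal coefficients of `e'`: `0` outside the blocks (`off`, `e' k = e₀ k`),
`(Qᴴ M Q)_{aa}` with `M = X(C) B Z^k 𝒰^m A` in a block (`coeff`).  Summability of `y`: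
`|t i a| ≤ |(Qᴴ (B A) Q)_{aa}|` = the modulus of the diagonal coefficient of `φ' g [] 0 0`,
summable by `StfC561` (`ekprod_up`) and injectivity of `idx`.  The identity: `tsum` over `ℕ` =
`tsum` over `Σ i, Fin (n i)` (injectivity, zeros) = `∑' i, tr (Qᴴ M Q) = ∑' i, X(C i) tr (⋯)`
(absolute summability: `StfC561`) `= ∑' i, X(C i) ∑_a t b^k l^m` = the `tsum` of the atoms
(absolutely summable: `T7.norm_wordEv_le`, `|b| = 1`, `|l| ≤ √q`).  Non-vanishing: by `distinct`
the atoms in the class of `Φ` are those of the block `i₀` of `phi`; if all the totals at the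
points `(b₀, l₀)` vanished, `tr (B Z^k₀ 𝒰^m₀ A) = ∑_a t b^k₀ l^m₀` would vanish, but it is the
twisted trace of `NonVanC561` in the basis of the block (`coeff` for `X = []`, `basis`). -/
def AsmC561 : Prop :=
  StfC561 K K' → BlocksC561 K K' → NonVanC561 K K' → ChangeC561 K' → AtomsC561 →
    SpecUpCS561 K K'

variable {K K'}

/-- **THE TOP OF THE NODE** (for a `σ`-stable base level). -/
theorem specUpCS_of561 (hZ : AsmC561 K K') (hT : StfC561 K K') (hB : BlocksC561 K K')
    (hN : NonVanC561 K K') (hC : ChangeC561 K') (hA : AtomsC561) : SpecUpCS561 K K' :=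
  hZ hT hB hN hC hA

/-- `SpecUpC` from `SpecUpCS561` when the supplier's base level is `σ`-stable. -/
theorem specUpC_of561
    (hσ : ∀ (ℓ : ℕ) (Φ : HeckeEigensystem K' ℂ) (Dt : L2Data K K'), IsL2Data ℓ Φ Dt →
      BaseStable561 Dt)
    (h : SpecUpCS561 K K') : SpecUpC K K' := by
  intro ℓ hcyc hℓ hcplx Φ hΦ hconst Dt hDt
  exact h ℓ hcyc hℓ hcplx Φ hΦ hconst Dt hDt (hσ ℓ Φ Dt hDt)

end Blocks

/-! ## Appendix (v0.1, additive): the equation lemmas of the definitions are realised HERE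

The equation lemmas (`eq_1`, `eq_def`, `eq_unfold`) of a definition are generated on demand, in
the module which first uses `unfold` / `rw` / `simp` with it; citing them here generates them
once, upstream of every user (same device as the appendix of `T7/Comparison.lean` v0.1).  No
statement of this file is changed. -/

theorem eqns_realised561 : True := by
  have _a1 := @AtomsC561.eq_1
  have _a2 := @AtomsC561.eq_def
  have _a3 := @AtomsC561.eq_unfold
  have _c1 := @ChangeC561.eq_1
  have _c2 := @ChangeC561.eq_def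
  have _c3 := @ChangeC561.eq_unfold
  have _s1 := @BaseStable561.eq_1
  have _s2 := @BaseStable561.eq_def
  have _s3 := @BaseStable561.eq_unfold
  have _t1 := @StfC561.eq_1
  have _t2 := @StfC561.eq_def
  have _t3 := @StfC561.eq_unfold
  have _b1 := @BlocksC561.eq_1
  have _b2 := @BlocksC561.eq_def
  have _b3 := @BlocksC561.eq_unfold
  have _n1 := @NonVanC561.eq_1
  have _n2 := @NonVanC561.eq_def
  have _n3 := @NonVanC561.eq_unfold
  have _u1 := @SpecUpCS561.eq_1
  have _u2 := @SpecUpCS561.eq_def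
  have _u3 := @SpecUpCS561.eq_unfold
  have _z1 := @AsmC561.eq_1
  have _z2 := @AsmC561.eq_def
  have _z3 := @AsmC561.eq_unfold
  trivial

end Fermat.Agent.LT.T7.H561

end
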