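import Mathlib
import Fermat.Agent.LT.T7.H561.SpecUpSpec

/-!
# Row LT, tower T7, node T7.L2.2.B = `BlocksC561` (sub-architect helper561): THE CUT

OFF-MAIN.  Definitions, frozen Props of the leaves, PROVED top.  Every proof is complete, nothing
assumed.  ADDITIVE (new names only, all ending in `561`).  Vocabulary: A0, `T5/Spec.lean`,
`T7/Level2.lean`, `T7/H561/SpecUpSpec.lean`.

    blocksC_of561 : BlocksAsmC561 K K' → WSpecC561 K K' → CompleteC561 K K' → SigmaC561 K K'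
                      → OpsC561 K K' → PhiC561 K K' → OffWC561 K K' → BlocksC561 K K'

Notation: `W` = the invariant cusp functions of the base level (`IsWFn 𝔑₀ r ℓ o`), a CLASS = the
functions of `W` with given joint eigen-data outside `S'` (`IsEigFn 𝔑₀ r ℓ o · C`).

* **`WSpecC561`** (LEAF; T2: `cuspSpecPlus_closed`, finiteness of the classes, the projector on
  the Iwahori invariants): `W` has a countable family of classes with finite orthonormal bases,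
  pairwise orthogonal, complete in `W`, unitary eigen-data, one index per class.
* **`CompleteC561`** (LEAF; PROJ-up + a complete orthonormal sequence of level `𝔑_g` +
  Gram--Schmidt): the family of `WSpecC561` is part of a complete orthonormal sequence `e₀` of
  cusp functions of level `𝔑_g`, the other members are orthogonal to `W`.
* **`SigmaC561`** (LEAF; `BaseStable561`, asset helper930 `T7/H930/RsigOps.lean`): `R(σ)` maps the
  class of `C` into the class of `σC C`, compatibly with agreement outside `S'`; the class of `Φ`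
  is stable.
* **`OpsC561`** (NODE; the Iwahori--Hecke algebras along the orbit and the Hecke operator of the
  bad element): finite sets `Hs j` (representatives of `I s I / I` at `o j`), elements `ω j` (the
  normaliser `!![0, 1; ϖ, 0]` of `I` at `o j`), `Hg` (representatives of `U g U / U`) with
  `S_j = cosetOp (Hs j)`, `ρ_j = trOp561 (ω j)`, `B = cosetOp Hg` preserving the classes, the
  relations, the adjoints, the action of `R(σ)`, and `(Hs 0) · ω 0` (`Finset.map` of the right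
  multiplication) a system for `I t I / I`,
  `ω 0 ²` a scalar uniformiser (the link with OP-up).
* **`PhiC561`** (LEAF): the class of `Φ` is not zero (the form of `Φ` is in `W`: `level_le`,
  `orbit_good`).
* **`OffWC561`** (LEAF; KILL-up + PROJ-up + adjoints of T2): the diagonal coefficient of a cusp
  function of level `𝔑_g` orthogonal to `W` vanishes.
* **`BlocksAsmC561`** (LEAF: the assembly; matrices of the operators in the bases of the stable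
  classes).
-/

set_option autoImplicit false

open AutomorphicForm IsDedekindDomain NumberField MeasureTheory
open scoped ComplexConjugate Matrix

noncomputable section

namespace Fermat.Agent.LT.T7.H561

open Fermat.Agent.LT.H556 Fermat.Agent.LT.H556.A0 Fermat.Agent.LT.T7

attribute [local instance] Fermat.Agent.LT.T5.instMeasurableSpaceG

/-- The right translation by `h`. -/
def trOp561 {K : Type} [Field K] [NumberField K] (h : G K) (ψ : G K → ℂ) : G K → ℂ :=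
  fun x => ψ (x * h)

section Blocks

variable {K K' : Type} [Field K] [NumberField K] [Field K'] [NumberField K'] [Algebra K K']

/-- **The spectrum of the invariant cusp functions of the base level**: classes `i : ι` with
eigen-data `C i` and orthonormal bases `v i`. -/
structure IsWSpec561 (Dt : L2Data K K') (ℓ : ℕ) (ι : Type) (n : ι → ℕ) (C : ι → EigData K')
    (v : (i : ι) → Fin (n i) → G K' → ℂ) : Prop where
  countable : Countable ι
  unitary : ∀ i, (C i).IsUnitaryOut Dt.S'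
  distinct : ∀ i i', (C i).AgreeOut Dt.S' (C i') → i = i'
  basis : ∀ i, IsClassBasis561 Dt ℓ (C i) (n i) (v i)
  orth : ∀ (i i' : ι) (a : Fin (n i)) (a' : Fin (n i')), i ≠ i' →
    T5.innerD Dt.R'.μ Dt.R'.F (v i a) (v i' a') = 0
  complete : ∀ ψ : G K' → ℂ, IsWFn Dt.𝔑₀ Dt.R'.r ℓ Dt.o ψ →
    HasSum (fun p : Σ i, Fin (n i) => ‖T5.innerD Dt.R'.μ Dt.R'.F ψ (v p.1 p.2)‖ ^ 2)
      (T5.innerD Dt.R'.μ Dt.R'.F ψ ψ).re
  cover : ∀ (ψ : G K' → ℂ) (C' : EigData K'), IsEigFn Dt.𝔑₀ Dt.R'.r ℓ Dt.o ψ C' →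
    (∃ x : G K', ψ x ≠ 0) → ∃ i, C'.AgreeOut Dt.S' (C i)

/-- **The operators on the invariant cusp functions of the base level**: `S_j = cosetOp (Hs j)`,
`ρ_j = trOp561 (ω j)` along the orbit, `B = cosetOp Hg` at the bad places. -/
structure IsWOps561 (Dt : L2Data K K') (ℓ : ℕ) (g : G K') (Hs : ℕ → Finset (G K'))
    (ω : ℕ → G K') (Hg : Finset (G K')) : Prop where
  S_eig : ∀ (j : ℕ) (ψ : G K' → ℂ) (C : EigData K'), IsEigFn Dt.𝔑₀ Dt.R'.r ℓ Dt.o ψ C →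
    IsEigFn Dt.𝔑₀ Dt.R'.r ℓ Dt.o (cosetOp (Hs j) ψ) C
  ρ_eig : ∀ (j : ℕ) (ψ : G K' → ℂ) (C : EigData K'), IsEigFn Dt.𝔑₀ Dt.R'.r ℓ Dt.o ψ C →
    IsEigFn Dt.𝔑₀ Dt.R'.r ℓ Dt.o (trOp561 (ω j) ψ) C
  B_eig : ∀ (ψ : G K' → ℂ) (C : EigData K'), IsEigFn Dt.𝔑₀ Dt.R'.r ℓ Dt.o ψ C →
    IsEigFn Dt.𝔑₀ Dt.R'.r ℓ Dt.o (cosetOp Hg ψ) C
  S_quad : ∀ (j : ℕ) (ψ : G K' → ℂ), IsWFn Dt.𝔑₀ Dt.R'.r ℓ Dt.o ψ → ∀ x : G K',
    cosetOp (Hs j) (cosetOp (Hs j) ψ) x
      = (((Ideal.absNorm (Dt.o 0).asIdeal : ℕ) : ℂ) - 1) * cosetOp (Hs j) ψ x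
        + ((Ideal.absNorm (Dt.o 0).asIdeal : ℕ) : ℂ) * ψ x
  ρ_central : ∀ (j : ℕ) (ψ : G K' → ℂ), IsWFn Dt.𝔑₀ Dt.R'.r ℓ Dt.o ψ → ∀ x : G K',
    trOp561 (ω j) (trOp561 (ω j) (cosetOp (Hs j) ψ)) x
      = cosetOp (Hs j) (trOp561 (ω j) (trOp561 (ω j) ψ)) x
  comm_SS : ∀ j j' : ℕ, j < ℓ → j' < ℓ → j ≠ j' →
    ∀ ψ : G K' → ℂ, IsWFn Dt.𝔑₀ Dt.R'.r ℓ Dt.o ψ → ∀ x : G K',
      cosetOp (Hs j) (cosetOp (Hs j') ψ) x = cosetOp (Hs j') (cosetOp (Hs j) ψ) x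
  comm_Sρ : ∀ j j' : ℕ, j < ℓ → j' < ℓ → j ≠ j' →
    ∀ ψ : G K' → ℂ, IsWFn Dt.𝔑₀ Dt.R'.r ℓ Dt.o ψ → ∀ x : G K',
      cosetOp (Hs j) (trOp561 (ω j') ψ) x = trOp561 (ω j') (cosetOp (Hs j) ψ) x
  comm_ρρ : ∀ j j' : ℕ, j < ℓ → j' < ℓ → j ≠ j' →
    ∀ ψ : G K' → ℂ, IsWFn Dt.𝔑₀ Dt.R'.r ℓ Dt.o ψ → ∀ x : G K',
      trOp561 (ω j) (trOp561 (ω j') ψ) x = trOp561 (ω j') (trOp561 (ω j) ψ) x
  per_S : ∀ (j : ℕ) (ψ : G K' → ℂ), IsWFn Dt.𝔑₀ Dt.R'.r ℓ Dt.o ψ → ∀ x : G K',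
    cosetOp (Hs (j + ℓ)) ψ x = cosetOp (Hs j) ψ x
  per_ρ : ∀ (j : ℕ) (ψ : G K' → ℂ), IsWFn Dt.𝔑₀ Dt.R'.r ℓ Dt.o ψ → ∀ x : G K',
    trOp561 (ω (j + ℓ)) ψ x = trOp561 (ω j) ψ x
  B_S : ∀ (j : ℕ) (ψ : G K' → ℂ), IsWFn Dt.𝔑₀ Dt.R'.r ℓ Dt.o ψ → ∀ x : G K',
    cosetOp Hg (cosetOp (Hs j) ψ) x = cosetOp (Hs j) (cosetOp Hg ψ) x
  B_ρ : ∀ (j : ℕ) (ψ : G K' → ℂ), IsWFn Dt.𝔑₀ Dt.R'.r ℓ Dt.o ψ → ∀ x : G K',
    cosetOp Hg (trOp561 (ω j) ψ) x = trOp561 (ω j) (cosetOp Hg ψ) x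
  S_adj : ∀ (j : ℕ) (ψ χ : G K' → ℂ), IsWFn Dt.𝔑₀ Dt.R'.r ℓ Dt.o ψ →
    IsWFn Dt.𝔑₀ Dt.R'.r ℓ Dt.o χ →
    T5.innerD Dt.R'.μ Dt.R'.F (cosetOp (Hs j) ψ) χ
      = T5.innerD Dt.R'.μ Dt.R'.F ψ (cosetOp (Hs j) χ)
  ρ_iso : ∀ (j : ℕ) (ψ χ : G K' → ℂ), IsWFn Dt.𝔑₀ Dt.R'.r ℓ Dt.o ψ →
    IsWFn Dt.𝔑₀ Dt.R'.r ℓ Dt.o χ →
    T5.innerD Dt.R'.μ Dt.R'.F (trOp561 (ω j) ψ) (trOp561 (ω j) χ)
      = T5.innerD Dt.R'.μ Dt.R'.F ψ χ
  σ_S : ∀ (j : ℕ) (ψ : G K' → ℂ), IsWFn Dt.𝔑₀ Dt.R'.r ℓ Dt.o ψ → ∀ x : G K',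
    T5.Rsig Dt.s (cosetOp (Hs j) ψ) x = cosetOp (Hs (j + 1)) (T5.Rsig Dt.s ψ) x
  σ_ρ : ∀ (j : ℕ) (ψ : G K' → ℂ), IsWFn Dt.𝔑₀ Dt.R'.r ℓ Dt.o ψ → ∀ x : G K',
    T5.Rsig Dt.s (trOp561 (ω j) ψ) x = trOp561 (ω (j + 1)) (T5.Rsig Dt.s ψ) x
  dbl : IsDblCosetSystem Dt.𝔑₀ g Hg
  iwsys : IsIwCosetSystem (Dt.o 0) ((Hs 0).map (mulRightEmbedding (ω 0)))
  unif : IsScalarUniformizerAt (Dt.o 0) (ω 0 * ω 0)

variable (K K')

/-- **LEAF T7.L2.2.B1 = W-SPEC.**
Proof.  `T2.cuspSpecPlus_closed` for the level `𝔑₀` (`𝔑₀ ≠ ⊥`: `level_g` and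
`IsCompData.level_ne` for the bad element `1`): an orthonormal complete family of joint
eigenfunctions of EVERY operator of the tower (Hecke operators outside `S'`, sphere means), with
unitary eigen-data; classes of finite dimension (`finite_class130`).  The projector on the
Iwahori invariants along the orbit (a finite average of right translations, `I / U` is finite)
is self-adjoint, commutes with the operators and maps the class of `C` onto the functions of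
`W` in the class; Gram--Schmidt in each class; eigen-data normalised (`0` at the places of `S'`
and the radii `d ≤ 0`) to get `distinct`. -/
def WSpecC561 : Prop :=
  ∀ ℓ : ℕ, IsCycExt K K' ℓ → ℓ ≠ 2 → TotCplx K →
    ∀ Φ : HeckeEigensystem K' ℂ, A0.IsCuspAdelicSph0 K' Φ → ConstOnFibres K Φ →
      ∀ Dt : L2Data K K', IsL2Data ℓ Φ Dt →
        ∃ (ι : Type) (n : ι → ℕ) (C : ι → EigData K') (v : (i : ι) → Fin (n i) → G K' → ℂ),
          IsWSpec561 Dt ℓ ι n C v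

/-- **LEAF T7.L2.2.B2 = COMPLETE.**
Proof.  `W` consists of cusp functions of level `𝔑_g` (`level_g`).  Take a complete orthonormal
sequence `f_k` of level `𝔑_g` (`T5.CuspONBExistsC`, closed in tower T5 / T2), `h_k` =
Gram--Schmidt of `f_k - P f_k` (`P` = PROJ-up); `e₀` = the family `v` (enumerated by
countability) interleaved with `h_k`; Parseval: `‖f‖² = ‖P f‖² + ‖f - P f‖²`. -/
def CompleteC561 : Prop :=
  ∀ ℓ : ℕ, IsCycExt K K' ℓ → ℓ ≠ 2 → TotCplx K →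
    ∀ Φ : HeckeEigensystem K' ℂ, A0.IsCuspAdelicSph0 K' Φ → ConstOnFibres K Φ →
      ∀ Dt : L2Data K K', IsL2Data ℓ Φ Dt → ∀ g : G K', Dt.IsBad g →
      ∀ (ι : Type) (n : ι → ℕ) (C : ι → EigData K') (v : (i : ι) → Fin (n i) → G K' → ℂ),
        IsWSpec561 Dt ℓ ι n C v →
        ∃ (e₀ : ℕ → G K' → ℂ) (idx : (i : ι) → Fin (n i) → ℕ),
          T5.IsCuspONB (Dt.𝔑 g) T5.trivType Dt.R'.r Dt.R'.μ Dt.R'.F e₀ ∧
          (∀ (i : ι) (a : Fin (n i)) (i' : ι) (a' : Fin (n i')), idx i a = idx i' a' →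
            (⟨i, a⟩ : Σ i, Fin (n i)) = ⟨i', a'⟩) ∧
          (∀ (i : ι) (a : Fin (n i)), e₀ (idx i a) = v i a) ∧
          ∀ j : ℕ, (∀ (i : ι) (a : Fin (n i)), idx i a ≠ j) →
            ∀ χ : G K' → ℂ, IsWFn Dt.𝔑₀ Dt.R'.r ℓ Dt.o χ →
              T5.innerD Dt.R'.μ Dt.R'.F (e₀ j) χ = 0

/-- **LEAF T7.L2.2.B3 = SIGMA.**
Proof.  `R(σ)` preserves the cusp functions of the base level (`BaseStable561`,
`IsCompData.aut` for the bad element `1`), the invariance under the positive scalars at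
infinity and under the Iwahori subgroups along the orbit (`orbit_rel`, `σ^ℓ = 1`); it moves the
Hecke operators at `w ∉ S'` to those at `σ w ∉ S'` (`mem_S'_g`: `S'` = the places over the
divisors of `𝔫 g`) and the sphere means at `w` to those at `σ w`: `σC C` = the eigen-data moved
by `σ` (asset helper930 `T7/H930/RsigOps.lean`).  The class of `Φ`: `IsL2Data.const`, and `sph0`
at every infinite place. -/
def SigmaC561 : Prop :=
  ∀ ℓ : ℕ, IsCycExt K K' ℓ → ℓ ≠ 2 → TotCplx K →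
    ∀ Φ : HeckeEigensystem K' ℂ, A0.IsCuspAdelicSph0 K' Φ → ConstOnFibres K Φ →
      ∀ Dt : L2Data K K', IsL2Data ℓ Φ Dt → BaseStable561 Dt →
        ∃ σC : EigData K' → EigData K',
          (∀ C C' : EigData K', C.AgreeOut Dt.S' C' → (σC C).AgreeOut Dt.S' (σC C')) ∧
          (∀ (ψ : G K' → ℂ) (C : EigData K'), IsEigFn Dt.𝔑₀ Dt.R'.r ℓ Dt.o ψ C →
            IsEigFn Dt.𝔑₀ Dt.R'.r ℓ Dt.o (T5.Rsig Dt.s ψ) (σC C)) ∧
          (σC (eigOf Φ)).AgreeOut Dt.S' (eigOf Φ)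

/-- **NODE T7.L2.2.B4 = OPS.**  See the header and `IsWOps561`.
Proof (sketch; to be cut: local group theory at `o j` + operators on functions).  At the place
`w = o j` with uniformiser `ϖ`: `I` = the Iwahori subgroup (`T5.InIwahori`), `s = !![0,1;1,0]`,
`ω = !![0,1;ϖ,0]`, `t = !![ϖ,0;0,1] = s ω`, `ω I ω⁻¹ = I`, `ω² = ϖ`,
`I s I = ⨆_{a mod ϖ} !![1,a;0,1] s I` (`q` cosets), `I t I = (I s I) ω`,
`(I s I)(I s I) = I ⊔ I s I` with `1_{IsI} ⋆ 1_{IsI} = (q-1) 1_{IsI} + q 1_I`.  The operators are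
finite sums of right translations by elements supported at ONE place of `S'`: they preserve the
cusp functions, commute with the Hecke operators outside `S'`, the sphere means and the
operators at the other places; adjoints: `∫_F ψ(x h) conj χ(x) = ∫_F ψ(x) conj χ(x h⁻¹)` for
automorphic functions (fundamental domain, ray; T2 `OpsAdjT`), `(I s I)⁻¹ = I s I`; `R(σ) R(h)
= R(σ h) R(σ)` and `σ` maps the Iwahori subgroup at `o j` onto the one at `o (j+1)`. -/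
def OpsC561 : Prop :=
  ∀ ℓ : ℕ, IsCycExt K K' ℓ → ℓ ≠ 2 → TotCplx K →
    ∀ Φ : HeckeEigensystem K' ℂ, A0.IsCuspAdelicSph0 K' Φ → ConstOnFibres K Φ →
      ∀ Dt : L2Data K K', IsL2Data ℓ Φ Dt → BaseStable561 Dt → ∀ g : G K', Dt.IsBad g →
        ∃ (Hs : ℕ → Finset (G K')) (ω : ℕ → G K') (Hg : Finset (G K')),
          IsWOps561 Dt ℓ g Hs ω Hg

/-- **LEAF T7.L2.2.B5 = PHI.**
Proof.  The form `φ` of `Φ` (`A0.IsSph0CuspFormFor`): of level `Φ.level ⊇ 𝔑₀` (`level_le`),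
invariant under `GL₂(𝒪_w)` at the places of the orbit (`orbit_good`), in particular under the
Iwahori subgroups; invariant under the ray generator (a product of positive scalars at the
infinite places); `MeanValueComplex` = `MeanEig · sph0` (`K'` is totally complex); Hecke
eigenfunction at `v ∤ 𝔑₀` (then `v ∤ Φ.level`). -/
def PhiC561 : Prop :=
  ∀ ℓ : ℕ, IsCycExt K K' ℓ → ℓ ≠ 2 → TotCplx K →
    ∀ Φ : HeckeEigensystem K' ℂ, A0.IsCuspAdelicSph0 K' Φ → ConstOnFibres K Φ →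
      ∀ Dt : L2Data K K', IsL2Data ℓ Φ Dt →
        ∃ ψ : G K' → ℂ, IsEigFn Dt.𝔑₀ Dt.R'.r ℓ Dt.o ψ (eigOf Φ) ∧ ∃ x : G K', ψ x ≠ 0

/-- **LEAF T7.L2.2.B6 = OFF-W.**  If `R(φ' g X k m)` maps the eigenfunctions of `W` into `W`, the
diagonal coefficient of a cusp function of level `𝔑_g` orthogonal to `W` vanishes.
Proof.  `f = R(σ) e` is a cusp function of level `𝔑_g` (`IsCompData.aut`); `f = f₁ + f₂`,
`f₁ ∈ W`, `f₂ ⊥ W` (PROJ-up); `R(φ') f₂ = 0` (KILL-up); `⟨R(φ') f₁, e⟩ = ⟨f₁, R(φ'*) e⟩`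
(adjoint of a convolution operator, T2 `OpsAdjT`) `= ∑_p ⟨f₁, v_p⟩ conj ⟨R(φ'*) e, v_p⟩`
(Parseval in `W`, polarised; `R(φ'*) e` is a cusp function, its component orthogonal to `W`
does not contribute) and `⟨R(φ'*) e, v_p⟩ = ⟨e, R(φ') v_p⟩ = 0`. -/
def OffWC561 : Prop :=
  ∀ ℓ : ℕ, IsCycExt K K' ℓ → ℓ ≠ 2 → TotCplx K →
    ∀ Φ : HeckeEigensystem K' ℂ, A0.IsCuspAdelicSph0 K' Φ → ConstOnFibres K Φ →
      ∀ Dt : L2Data K K', IsL2Data ℓ Φ Dt → ∀ g : G K', Dt.IsBad g →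
      ∀ (ι : Type) (n : ι → ℕ) (C : ι → EigData K') (v : (i : ι) → Fin (n i) → G K' → ℂ),
        IsWSpec561 Dt ℓ ι n C v →
        (∀ X : List (Gen K'), (∀ x ∈ X, x.Out Dt.S') → ∀ (k : ℤ) (m : ℕ) (ψ : G K' → ℂ)
          (C' : EigData K'), IsEigFn Dt.𝔑₀ Dt.R'.r ℓ Dt.o ψ C' →
            IsWFn Dt.𝔑₀ Dt.R'.r ℓ Dt.o (T5.Rconv Dt.R'.μ (Dt.φ' g X k m) ψ)) →
        ∀ e : G K' → ℂ, T5.IsCuspFn (Dt.𝔑 g) T5.trivType Dt.R'.r e →
          (∀ χ : G K' → ℂ, IsWFn Dt.𝔑₀ Dt.R'.r ℓ Dt.o χ →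
            T5.innerD Dt.R'.μ Dt.R'.F e χ = 0) →
          ∀ X : List (Gen K'), (∀ x ∈ X, x.Out Dt.S') → ∀ (k : ℤ) (m : ℕ),
            T5.diagCoeff Dt.s Dt.R'.μ Dt.R'.F (Dt.φ' g X k m) e = 0

/-- **LEAF T7.L2.2.B7 = BLOCKS-ASSEMBLY.**
Proof.  `ι, n, C, v` from `WSpecC561`; `e₀, idx` from `CompleteC561`; `σC` from `SigmaC561`;
`Hs, ω, Hg` from `OpsC561`.  Blocks: `ι' = {i // (σC (C i)).AgreeOut S' (C i)}`.  In a block
every operator `T` among `R(σ)`, `S_j`, `ρ_j`, `B` maps the class into itself (an eigenfunction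
for `C'` is one for every `C''` agreeing with `C'` outside `S'`: `mem_S'`, radii `d > 0`), so
`T v_a = ∑_b M_T(b,a) v_b` pointwise with `M_T(b,a) = ⟨T v_a, v_b⟩` (`span`, `orth`, additivity
of the inner product on bounded continuous functions); `M_{T T'} = M_T M_{T'}` (the operators
are additive: finite sums of translations); `A = M_{R(σ)}`, `B = c_g(C) M_{cosetOp Hg}`,
`S j = M_{S_j}`, `ρ j = M_{ρ_j}`: `IsIwBlock561` from `IsWOps561` (`S_adj` gives `Sᴴ = S`,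
`ρ_iso` gives `ρᴴ ρ = 1`).  `coeff`: OP-up for `ψ = R(σ) v_a` with `H = (Hs 0) · ω 0`,
`z = ω 0 ²`: `iwOp = q^{-1/2} S₀ ρ₀`, `shiftOp z k = (ρ₀²)^k` (`k ∈ ℤ`; `ρ₀` is invertible on the
class).  `off`: outside the range of `idx`: `OffWC561` (its hypothesis from OP-up and
`S_eig`, `ρ_eig`, `B_eig`); in a class which is not stable: `R(φ') R(σ) v_a` is an
eigenfunction for `σC (C i)`, hence `0` or in another class (`cover`, `distinct`), orthogonal
to `v_a` (`orth`).  `phi`: `PhiC561`, `cover`, `SigmaC561`. -/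
def BlocksAsmC561 : Prop :=
  WSpecC561 K K' → CompleteC561 K K' → SigmaC561 K K' → OpsC561 K K' → PhiC561 K K' →
    OffWC561 K K' → BlocksC561 K K'

variable {K K'}

/-- **THE TOP OF THE NODE T7.L2.2.B.** -/
theorem blocksC_of561 (hZ : BlocksAsmC561 K K') (hW : WSpecC561 K K') (hC : CompleteC561 K K')
    (hS : SigmaC561 K K') (hO : OpsC561 K K') (hP : PhiC561 K K') (hF : OffWC561 K K') :
    BlocksC561 K K' :=
  hZ hW hC hS hO hP hF

end Blocks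

/-! ## Appendix: the equation lemmas of the definitions are realised HERE -/

theorem eqns_realisedB561 : True := by
  have _r1 := @trOp561.eq_1
  have _r2 := @trOp561.eq_def
  have _r3 := @trOp561.eq_unfold
  have _w1 := @WSpecC561.eq_1
  have _w2 := @WSpecC561.eq_def
  have _w3 := @WSpecC561.eq_unfold
  have _c1 := @CompleteC561.eq_1
  have _c2 := @CompleteC561.eq_def
  have _c3 := @CompleteC561.eq_unfold
  have _s1 := @SigmaC561.eq_1
  have _s2 := @SigmaC561.eq_def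
  have _s3 := @SigmaC561.eq_unfold
  have _o1 := @OpsC561.eq_1
  have _o2 := @OpsC561.eq_def
  have _o3 := @OpsC561.eq_unfold
  have _p1 := @PhiC561.eq_1
  have _p2 := @PhiC561.eq_def
  have _p3 := @PhiC561.eq_unfold
  have _f1 := @OffWC561.eq_1
  have _f2 := @OffWC561.eq_def
  have _f3 := @OffWC561.eq_unfold
  have _z1 := @BlocksAsmC561.eq_1
  have _z2 := @BlocksAsmC561.eq_def
  have _z3 := @BlocksAsmC561.eq_unfold
  trivial

end Fermat.Agent.LT.T7.H561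

end
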