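import Mathlib
import Fermat.Agent.LT.T7.H817.NonVanOpen
import Fermat.Agent.LT.T7.H963.SimpleTop
import Fermat.Agent.LT.T7.H78.ClassFinClosed
import Fermat.Agent.LT.T7.H454.ClassLin
import Fermat.Agent.LT.T7.H793.ClassOp
import Fermat.Agent.LT.T7.H593.DblSys
import Fermat.Agent.LT.T7.H258.StepArch
import Fermat.Agent.LT.T7.H938.Nontriv
import Fermat.Agent.LT.T7.H270.MulG

/-!
# Row LT, tower T7, node T7.L2.2.N `NonVanC561` (helper561, integrator): CLOSED

OFF-MAIN.  Every proof is complete, nothing assumed.  ADDITIVE (new names only, ending in `561`).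
The state `nonVanC561_open817` of helper817 (registry row 2191) with its six open leaves closed:

* `H963.ClassFinC` : helper78 `classFinC78`;
* `H963.ClassLinC` : helper454 `classLinC454`;
* `H963.ClassOpC` : helper793 `classOpC793`;
* `H963.SimpleC` : the top `simpleC_of_open` of helper963 on the three leaves above,
  `BadSystemExistsC`, `IwSystemExistsC` (helper593 `badSystemExistsC593`, `iwSystemExistsC593`) and
  `StepArchC` (helper258 `stepArchC258`);
* `CM616.NontrivC616` : helper938 `nontrivC938`;
* `CM616.MulGC616` : helper270 `mulGC270`.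

    simpleC_closed561 (K) : H963.SimpleC K
    nonVanC_closed561     : NonVanC561 K K'
-/

set_option autoImplicit false

open AutomorphicForm IsDedekindDomain NumberField MeasureTheory

noncomputable section

namespace Fermat.Agent.LT.T7.H561

open Fermat.Agent.LT.H556 Fermat.Agent.LT.H556.A0 Fermat.Agent.LT.T7

/-- **MULTIPLICITY ONE IN MODULE FORM** (the node `SimpleC` of helper963), CLOSED. -/
theorem simpleC_closed561 (K : Type) [Field K] [NumberField K] :
    Fermat.Agent.LT.T7.H963.SimpleC K :=
  Fermat.Agent.LT.T7.H963.simpleC_of_open (Fermat.Agent.LT.T7.H78.classFinC78 K)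
    (Fermat.Agent.LT.T7.H454.classLinC454 K) (Fermat.Agent.LT.T7.H793.classOpC793 K)
    (Fermat.Agent.LT.T7.H593DS.badSystemExistsC593 K)
    (Fermat.Agent.LT.T7.H593DS.iwSystemExistsC593 K) (Fermat.Agent.LT.T7.H258.stepArchC258 K)

variable {K K' : Type} [Field K] [NumberField K] [Field K'] [NumberField K'] [Algebra K K']

/-- **`NonVanC561` CLOSED** (registry row 2191). -/
theorem nonVanC_closed561 : NonVanC561 K K' :=
  Fermat.Agent.LT.T7.H817.nonVanC561_open817 K K' (Fermat.Agent.LT.T7.H78.classFinC78 K')
    (Fermat.Agent.LT.T7.H454.classLinC454 K') (Fermat.Agent.LT.T7.H793.classOpC793 K')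
    (simpleC_closed561 K') (Fermat.Agent.LT.T7.H938.nontrivC938 K K')
    (Fermat.Agent.LT.T7.H270.mulGC270 K K')

end Fermat.Agent.LT.T7.H561

end
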