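import Mathlib
import Fermat.Agent.LT.T7.H561.BlocksSpec

/-!
# Row LT, tower T7, node T7.L2.2.B4 = `OpsC561` (helper561): THE CUT

OFF-MAIN.  Definitions, frozen Props of the leaves, PROVED top.  Every proof is complete, nothing
assumed.  ADDITIVE (new names only, all ending in `561`).

    opsC_of561 : IwSysExistsC561 K K' → OpsEigC561 K K' → OpsRelC561 K K' → OpsCommC561 K K'
                   → OpsPerC561 K K' → OpsAdjC561 K K' → OpsSigC561 K K' → OpsLinkC561 K K'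
                   → BadOpC561 K K' → OpsC561 K K'

The objects are EXPLICIT (`IsIwSys561`): at the place `w = o j`, `ω j` is supported at `w` with
component `!![0, 1; ϖ, 0]` (`ϖ` a uniformiser), `Hs j` consists of `q = N w` elements supported
at `w` with components `!![a, 1; 1, 0]` (`a` integral), pairwise inequivalent modulo the Iwahori
subgroup on the right (`a` runs over representatives of the residue field):
`I s I = ⨆_a !![a,1;1,0] I`, `!![a,1;1,0] !![0,1;ϖ,0] = !![ϖ,a;0,1]`, `I t I = ⨆_a !![ϖ,a;0,1] I`.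
Every leaf is a statement about the operators `S_j = cosetOp (Hs j)`, `ρ_j = trOp561 (ω j)` on
the invariant cusp functions `W` of the base level, for ANY such system.
Assets: helper415 `T5/H415/AutT5.lean` (every `AdelicAut` is the canonical one: `valued_onG415`,
`inIwahori_onG415`, `onG_iterate415`, `orbit_closed415`), T2 `OpsAdjT` (translations are
isometries of the inner product on the fundamental domain).
-/

set_option autoImplicit false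

open AutomorphicForm IsDedekindDomain NumberField MeasureTheory
open scoped ComplexConjugate Matrix

noncomputable section

namespace Fermat.Agent.LT.T7.H561

open Fermat.Agent.LT.H556 Fermat.Agent.LT.H556.A0 Fermat.Agent.LT.T7

attribute [local instance] Fermat.Agent.LT.T5.instMeasurableSpaceG

section Ops

variable {K K' : Type} [Field K] [NumberField K] [Field K'] [NumberField K'] [Algebra K K']

/-- The hypotheses of the node `SpecUpC` on the data. -/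
structure IsSetup561 (ℓ : ℕ) (Φ : HeckeEigensystem K' ℂ) (Dt : L2Data K K') : Prop where
  cyc : IsCycExt K K' ℓ
  odd : ℓ ≠ 2
  cplx : TotCplx K
  cusp : A0.IsCuspAdelicSph0 K' Φ
  const : ConstOnFibres K Φ
  data : IsL2Data ℓ Φ Dt

/-- **The explicit systems along the orbit.** -/
structure IsIwSys561 (Dt : L2Data K K') (Hs : ℕ → Finset (G K')) (ω : ℕ → G K') : Prop where
  ω_local : ∀ j, IsLocalAtFin (Dt.o j) (ω j)
  ω_comp : ∀ j, ∃ c : (Dt.o j).adicCompletion K', Valued.v c = WithZero.exp (-1 : ℤ) ∧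
    finComp (Dt.o j) (ω j) = !![0, 1; c, 0]
  Hs_card : ∀ j, (Hs j).card = Ideal.absNorm (Dt.o j).asIdeal
  Hs_local : ∀ j, ∀ h ∈ Hs j, IsLocalAtFin (Dt.o j) h
  Hs_comp : ∀ j, ∀ h ∈ Hs j, ∃ a : (Dt.o j).adicCompletion K',
    a ∈ (Dt.o j).adicCompletionIntegers K' ∧ finComp (Dt.o j) h = !![a, 1; 1, 0]
  Hs_inj : ∀ j, ∀ h ∈ Hs j, ∀ h' ∈ Hs j, h ≠ h' → ¬ T5.InIwahori (Dt.o j) (h⁻¹ * h')

variable (K K')

/-- **LEAF B4.1 = IW-SYS-EXISTS.**  Uniformisers exist, the residue field has `N w` elements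
with integral representatives, an adele with one prescribed component (an idele for an
invertible matrix) exists. -/
def IwSysExistsC561 : Prop :=
  ∀ (ℓ : ℕ) (Φ : HeckeEigensystem K' ℂ) (Dt : L2Data K K'), IsSetup561 ℓ Φ Dt →
    ∃ (Hs : ℕ → Finset (G K')) (ω : ℕ → G K'), IsIwSys561 Dt Hs ω

/-- **LEAF B4.2 = OPS-EIG.**  `S_j` and `ρ_j` preserve the classes.
Proof.  A finite sum of right translations by elements supported at finite places preserves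
continuity, boundedness, the left invariance, the vanishing of the constant term, the
`K_∞`-type, the invariance under the ray generator and the positive scalars at infinity; the
elements commute with the Hecke coset systems at `v ∉ S'` (`orbit_level`: `o j ∈ S'`) and with
the spheres at infinity (sums and integrals commute: continuous integrands).  Level `𝔑₀` and
Iwahori invariance: for `u` in the level group, resp. in the Iwahori subgroups along the orbit,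
`u h = h' u'` with `h ↦ h'` a permutation of `Hs j` (`I s I = ⨆ h I`; the level group at `o j` is
contained in `I` and normal in `GL₂(𝒪)`; `ω` normalises `I`). -/
def OpsEigC561 : Prop :=
  ∀ (ℓ : ℕ) (Φ : HeckeEigensystem K' ℂ) (Dt : L2Data K K'), IsSetup561 ℓ Φ Dt →
    ∀ (Hs : ℕ → Finset (G K')) (ω : ℕ → G K'), IsIwSys561 Dt Hs ω →
      ∀ (j : ℕ) (ψ : G K' → ℂ) (C : EigData K'), IsEigFn Dt.𝔑₀ Dt.R'.r ℓ Dt.o ψ C →
        IsEigFn Dt.𝔑₀ Dt.R'.r ℓ Dt.o (cosetOp (Hs j) ψ) C ∧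
        IsEigFn Dt.𝔑₀ Dt.R'.r ℓ Dt.o (trOp561 (ω j) ψ) C

/-- **LEAF B4.3 = OPS-REL.**  `S_j² = (q-1) S_j + q` and `ρ_j² S_j = S_j ρ_j²` on `W`
(`q = N (o 0) = N (o j)`: `orbit_rel`).
Proof.  `!![a,1;1,0] !![b,1;1,0] = !![ab+1, a; b, 1]`: in `I` iff `b ∈ 𝔭`, i.e. for ONE `b`;
otherwise in `!![c,1;1,0] I` with `c = a + b⁻¹`, each `c ≠ a` once.  `ω² = ϖ` is central. -/
def OpsRelC561 : Prop :=
  ∀ (ℓ : ℕ) (Φ : HeckeEigensystem K' ℂ) (Dt : L2Data K K'), IsSetup561 ℓ Φ Dt →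
    ∀ (Hs : ℕ → Finset (G K')) (ω : ℕ → G K'), IsIwSys561 Dt Hs ω →
      ∀ (j : ℕ) (ψ : G K' → ℂ), IsWFn Dt.𝔑₀ Dt.R'.r ℓ Dt.o ψ → ∀ x : G K',
        cosetOp (Hs j) (cosetOp (Hs j) ψ) x
          = (((Ideal.absNorm (Dt.o 0).asIdeal : ℕ) : ℂ) - 1) * cosetOp (Hs j) ψ x
            + ((Ideal.absNorm (Dt.o 0).asIdeal : ℕ) : ℂ) * ψ x ∧
        trOp561 (ω j) (trOp561 (ω j) (cosetOp (Hs j) ψ)) x
          = cosetOp (Hs j) (trOp561 (ω j) (trOp561 (ω j) ψ)) x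

/-- **LEAF B4.4 = OPS-COMM.**  The operators at two different places of the orbit commute
(`o j ≠ o j'` for `j ≠ j' < ℓ`: `orbit_ne`, `orbit_rel`; elements supported at different places
commute). -/
def OpsCommC561 : Prop :=
  ∀ (ℓ : ℕ) (Φ : HeckeEigensystem K' ℂ) (Dt : L2Data K K'), IsSetup561 ℓ Φ Dt →
    ∀ (Hs : ℕ → Finset (G K')) (ω : ℕ → G K'), IsIwSys561 Dt Hs ω →
      ∀ j j' : ℕ, j < ℓ → j' < ℓ → j ≠ j' → ∀ (ψ : G K' → ℂ) (x : G K'),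
        cosetOp (Hs j) (cosetOp (Hs j') ψ) x = cosetOp (Hs j') (cosetOp (Hs j) ψ) x ∧
        cosetOp (Hs j) (trOp561 (ω j') ψ) x = trOp561 (ω j') (cosetOp (Hs j) ψ) x ∧
        trOp561 (ω j) (trOp561 (ω j') ψ) x = trOp561 (ω j') (trOp561 (ω j) ψ) x

/-- **LEAF B4.5 = OPS-PER.**  `o (j + ℓ) = o j` (`σ^ℓ = 1`, asset helper415) and two systems at
the same place define the same operators on `W`. -/
def OpsPerC561 : Prop :=
  ∀ (ℓ : ℕ) (Φ : HeckeEigensystem K' ℂ) (Dt : L2Data K K'), IsSetup561 ℓ Φ Dt →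
    ∀ (Hs : ℕ → Finset (G K')) (ω : ℕ → G K'), IsIwSys561 Dt Hs ω →
      ∀ (j : ℕ) (ψ : G K' → ℂ), IsWFn Dt.𝔑₀ Dt.R'.r ℓ Dt.o ψ → ∀ x : G K',
        cosetOp (Hs (j + ℓ)) ψ x = cosetOp (Hs j) ψ x ∧
        trOp561 (ω (j + ℓ)) ψ x = trOp561 (ω j) ψ x

/-- **LEAF B4.6 = OPS-ADJ.**  `S_j` is symmetric and `ρ_j` is an isometry on `W`.
Proof.  `⟨R(h) ψ, R(h) χ⟩ = ⟨ψ, χ⟩` for automorphic functions invariant under the ray generator
(T2 `OpsAdjT`: `F h` is a fundamental domain of a translate of the slab, cut and move by powers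
of `r`).  `⟨R(h_a) ψ, χ⟩ = ⟨ψ, R(h_a⁻¹) χ⟩`, `h_a⁻¹ = s x_{-a}`, `R(h_a⁻¹) χ = R(s) χ` on `W`;
`⟨ψ, R(s) χ⟩ = ⟨R(x_b⁻¹) ψ, R(s) χ⟩ = ⟨ψ, R(x_b s) χ⟩` for every `b`: `q ⟨ψ, R(s) χ⟩ = ⟨ψ, S χ⟩`. -/
def OpsAdjC561 : Prop :=
  ∀ (ℓ : ℕ) (Φ : HeckeEigensystem K' ℂ) (Dt : L2Data K K'), IsSetup561 ℓ Φ Dt →
    ∀ (Hs : ℕ → Finset (G K')) (ω : ℕ → G K'), IsIwSys561 Dt Hs ω →
      ∀ (j : ℕ) (ψ χ : G K' → ℂ), IsWFn Dt.𝔑₀ Dt.R'.r ℓ Dt.o ψ →
        IsWFn Dt.𝔑₀ Dt.R'.r ℓ Dt.o χ →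
        T5.innerD Dt.R'.μ Dt.R'.F (cosetOp (Hs j) ψ) χ
          = T5.innerD Dt.R'.μ Dt.R'.F ψ (cosetOp (Hs j) χ) ∧
        T5.innerD Dt.R'.μ Dt.R'.F (trOp561 (ω j) ψ) (trOp561 (ω j) χ)
          = T5.innerD Dt.R'.μ Dt.R'.F ψ χ

/-- **LEAF B4.7 = OPS-SIGMA.**  `R(σ) S_j = S_{j+1} R(σ)`, `R(σ) ρ_j = ρ_{j+1} R(σ)` on `W`.
Proof.  `R(σ) R(h) = R(σ h) R(σ)`; `σ (Hs j)`, `σ (ω j)` is a system at `o (j+1)` up to the
Iwahori subgroup (asset helper415: `valued_onG415`, `inIwahori_onG415`, locality); `R(σ) ψ ∈ W`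
(`BaseStable561`); two systems at the same place define the same operators on `W`. -/
def OpsSigC561 : Prop :=
  ∀ (ℓ : ℕ) (Φ : HeckeEigensystem K' ℂ) (Dt : L2Data K K'), IsSetup561 ℓ Φ Dt →
    BaseStable561 Dt →
    ∀ (Hs : ℕ → Finset (G K')) (ω : ℕ → G K'), IsIwSys561 Dt Hs ω →
      ∀ (j : ℕ) (ψ : G K' → ℂ), IsWFn Dt.𝔑₀ Dt.R'.r ℓ Dt.o ψ → ∀ x : G K',
        T5.Rsig Dt.s (cosetOp (Hs j) ψ) x = cosetOp (Hs (j + 1)) (T5.Rsig Dt.s ψ) x ∧
        T5.Rsig Dt.s (trOp561 (ω j) ψ) x = trOp561 (ω (j + 1)) (T5.Rsig Dt.s ψ) x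

/-- **LEAF B4.8 = OPS-LINK.**  `!![a,1;1,0] !![0,1;ϖ,0] = !![ϖ,a;0,1] = !![1,a;0,1] !![ϖ,0;0,1]`
is in `I t I`; `ω² = ϖ`. -/
def OpsLinkC561 : Prop :=
  ∀ (ℓ : ℕ) (Φ : HeckeEigensystem K' ℂ) (Dt : L2Data K K'), IsSetup561 ℓ Φ Dt →
    ∀ (Hs : ℕ → Finset (G K')) (ω : ℕ → G K'), IsIwSys561 Dt Hs ω →
      IsIwCosetSystem (Dt.o 0) ((Hs 0).map (mulRightEmbedding (ω 0))) ∧
      IsScalarUniformizerAt (Dt.o 0) (ω 0 * ω 0)

/-- **LEAF B4.9 = BAD-OP.**  The Hecke operator of a bad element: a finite system of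
representatives of `U g U / U` exists (`U = U(𝔑₀)` is compact open in the finite adelic group,
`g` is trivial at infinity), the operator preserves the classes (as in B4.2: `g` is supported at
the places of `S'` outside the orbit) and commutes with the operators along the orbit
(`u h = h' u'` with `u` in the Iwahori subgroups along the orbit, which normalise the level
group). -/
def BadOpC561 : Prop :=
  ∀ (ℓ : ℕ) (Φ : HeckeEigensystem K' ℂ) (Dt : L2Data K K'), IsSetup561 ℓ Φ Dt →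
    ∀ g : G K', Dt.IsBad g →
      ∃ Hg : Finset (G K'), IsDblCosetSystem Dt.𝔑₀ g Hg ∧
        (∀ (ψ : G K' → ℂ) (C : EigData K'), IsEigFn Dt.𝔑₀ Dt.R'.r ℓ Dt.o ψ C →
          IsEigFn Dt.𝔑₀ Dt.R'.r ℓ Dt.o (cosetOp Hg ψ) C) ∧
        ∀ (Hs : ℕ → Finset (G K')) (ω : ℕ → G K'), IsIwSys561 Dt Hs ω →
          ∀ (j : ℕ) (ψ : G K' → ℂ), IsWFn Dt.𝔑₀ Dt.R'.r ℓ Dt.o ψ → ∀ x : G K',
            cosetOp Hg (cosetOp (Hs j) ψ) x = cosetOp (Hs j) (cosetOp Hg ψ) x ∧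
            cosetOp Hg (trOp561 (ω j) ψ) x = trOp561 (ω j) (cosetOp Hg ψ) x

variable {K K'}

/-- **THE TOP OF THE NODE T7.L2.2.B4.** -/
theorem opsC_of561 (hX : IwSysExistsC561 K K') (hE : OpsEigC561 K K') (hR : OpsRelC561 K K')
    (hM : OpsCommC561 K K') (hP : OpsPerC561 K K') (hA : OpsAdjC561 K K')
    (hS : OpsSigC561 K K') (hL : OpsLinkC561 K K') (hB : BadOpC561 K K') : OpsC561 K K' := by
  intro ℓ hcyc hℓ hcplx Φ hΦ hconst Dt hDt hst g hg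
  have hs : IsSetup561 ℓ Φ Dt := ⟨hcyc, hℓ, hcplx, hΦ, hconst, hDt⟩
  obtain ⟨Hs, ω, hsys⟩ := hX ℓ Φ Dt hs
  obtain ⟨Hg, hdbl, hBe, hBc⟩ := hB ℓ Φ Dt hs g hg
  refine ⟨Hs, ω, Hg, ?_⟩
  exact
    { S_eig := fun j ψ C h => (hE ℓ Φ Dt hs Hs ω hsys j ψ C h).1
      ρ_eig := fun j ψ C h => (hE ℓ Φ Dt hs Hs ω hsys j ψ C h).2
      B_eig := hBe
      S_quad := fun j ψ h x => (hR ℓ Φ Dt hs Hs ω hsys j ψ h x).1
      ρ_central := fun j ψ h x => (hR ℓ Φ Dt hs Hs ω hsys j ψ h x).2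
      comm_SS := fun j j' h1 h2 h3 ψ _ x => (hM ℓ Φ Dt hs Hs ω hsys j j' h1 h2 h3 ψ x).1
      comm_Sρ := fun j j' h1 h2 h3 ψ _ x => (hM ℓ Φ Dt hs Hs ω hsys j j' h1 h2 h3 ψ x).2.1
      comm_ρρ := fun j j' h1 h2 h3 ψ _ x => (hM ℓ Φ Dt hs Hs ω hsys j j' h1 h2 h3 ψ x).2.2
      per_S := fun j ψ h x => (hP ℓ Φ Dt hs Hs ω hsys j ψ h x).1
      per_ρ := fun j ψ h x => (hP ℓ Φ Dt hs Hs ω hsys j ψ h x).2
      B_S := fun j ψ h x => (hBc Hs ω hsys j ψ h x).1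
      B_ρ := fun j ψ h x => (hBc Hs ω hsys j ψ h x).2
      S_adj := fun j ψ χ h1 h2 => (hA ℓ Φ Dt hs Hs ω hsys j ψ χ h1 h2).1
      ρ_iso := fun j ψ χ h1 h2 => (hA ℓ Φ Dt hs Hs ω hsys j ψ χ h1 h2).2
      σ_S := fun j ψ h x => (hS ℓ Φ Dt hs hst Hs ω hsys j ψ h x).1
      σ_ρ := fun j ψ h x => (hS ℓ Φ Dt hs hst Hs ω hsys j ψ h x).2
      dbl := hdbl
      iwsys := (hL ℓ Φ Dt hs Hs ω hsys).1
      unif := (hL ℓ Φ Dt hs Hs ω hsys).2 }

end Ops

/-! ## Appendix: the equation lemmas of the definitions are realised HERE -/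

theorem eqns_realisedO561 : True := by
  have _a1 := @IwSysExistsC561.eq_1
  have _a2 := @IwSysExistsC561.eq_def
  have _a3 := @IwSysExistsC561.eq_unfold
  have _b1 := @OpsEigC561.eq_1
  have _b2 := @OpsEigC561.eq_def
  have _b3 := @OpsEigC561.eq_unfold
  have _c1 := @OpsRelC561.eq_1
  have _c2 := @OpsRelC561.eq_def
  have _c3 := @OpsRelC561.eq_unfold
  have _d1 := @OpsCommC561.eq_1
  have _d2 := @OpsCommC561.eq_def
  have _d3 := @OpsCommC561.eq_unfold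
  have _e1 := @OpsPerC561.eq_1
  have _e2 := @OpsPerC561.eq_def
  have _e3 := @OpsPerC561.eq_unfold
  have _f1 := @OpsAdjC561.eq_1
  have _f2 := @OpsAdjC561.eq_def
  have _f3 := @OpsAdjC561.eq_unfold
  have _g1 := @OpsSigC561.eq_1
  have _g2 := @OpsSigC561.eq_def
  have _g3 := @OpsSigC561.eq_unfold
  have _h1 := @OpsLinkC561.eq_1
  have _h2 := @OpsLinkC561.eq_def
  have _h3 := @OpsLinkC561.eq_unfold
  have _i1 := @BadOpC561.eq_1
  have _i2 := @BadOpC561.eq_def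
  have _i3 := @BadOpC561.eq_unfold
  trivial

end Fermat.Agent.LT.T7.H561

end
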