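import Mathlib
import Fermat.Agent.LT.T7.Level2S
import Fermat.Agent.LT.T7.H561.SpecUpSpec

/-!
# Row LT, tower T7, node T7.L2.2 (sub-architect helper561): the top for `SpecUpSC`

OFF-MAIN.  ADDITIVE.  Every proof is complete, nothing assumed.  Target: `T7.SpecUpSC` of
`T7/Level2S.lean` (helper797@f117393a9, sha256 01962048e7c51d57) VERBATIM.

    specUpSC_of561 : StableC561 K K' → AsmC561 K K' → StfC561 K K' → BlocksC561 K K'
                       → NonVanC561 K K' → ChangeC561 K' → AtomsC561 → SpecUpSC K K'

* **`StableC561`** (LEAF, T1): for data of level 2 with a base level extended from `K`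
  (`L2Data.IsStable`) the level group of the base level is stable under the automorphism
  (`BaseStable561`).
-/

set_option autoImplicit false

open AutomorphicForm IsDedekindDomain NumberField MeasureTheory
open scoped ComplexConjugate

noncomputable section

namespace Fermat.Agent.LT.T7.H561

open Fermat.Agent.LT.H556 Fermat.Agent.LT.H556.A0 Fermat.Agent.LT.T7

attribute [local instance] Fermat.Agent.LT.T5.instMeasurableSpaceG

variable (K K' : Type) [Field K] [NumberField K] [Field K'] [NumberField K'] [Algebra K K']

/-- **LEAF T7.L2.2.S = STABLE (T1).**  If the base level is the extension `𝔫₀ 𝒪_{K'}` of a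
non-zero ideal of `K`, the principal congruence subgroup `U(𝔑₀)` is stable under `σ`.
Proof.  `IsL2Data.comp` (for the bad element `1`): `σ` generates the Galois group and fixes the
image of `K` (`cyc.fixed`, `base`); an automorphism of the adele ring which is continuous with
continuous inverse and extends `σ` permutes the places as `σ` does and is the continuous
extension of `σ` on each completion (the primitive idempotents of the adele ring; density of
`K'` in the completions), hence maps the closure of `𝔫₀ 𝒪_{K'}` at `w` onto the closure at
`σ w`; the condition `InLevelGroup` is a condition on the components.  (Same statement as the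
field `level` of `T5.AutPreserves` for the levels `𝔑_g`; asset helper930
`T7/H930/CompDataExists.lean` for the canonical extension.) -/
def StableC561 : Prop :=
  ∀ (ℓ : ℕ) (Φ : HeckeEigensystem K' ℂ) (Dt : L2Data K K'), IsL2Data ℓ Φ Dt → Dt.IsStable →
    BaseStable561 Dt

variable {K K'}

/-- **THE TOP OF THE NODE T7.L2.2**: `SpecUpSC` from the leaves. -/
theorem specUpSC_of561 (hS : StableC561 K K') (hZ : AsmC561 K K') (hT : StfC561 K K')
    (hB : BlocksC561 K K') (hN : NonVanC561 K K') (hC : ChangeC561 K') (hA : AtomsC561) :
    SpecUpSC K K' := by
  intro ℓ hcyc hℓ hcplx Φ hΦ hconst Dt hDt hst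
  exact specUpCS_of561 hZ hT hB hN hC hA ℓ hcyc hℓ hcplx Φ hΦ hconst Dt hDt (hS ℓ Φ Dt hDt hst)

theorem eqns_realisedTop561 : True := by
  have _a1 := @StableC561.eq_1
  have _a2 := @StableC561.eq_def
  have _a3 := @StableC561.eq_unfold
  trivial

end Fermat.Agent.LT.T7.H561

end
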