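import Mathlib
import Fermat.Agent.LT.T1.Closed
import Fermat.Agent.LT.T7.H32.SpecIdPlug
import Fermat.Agent.LT.T7.H561.SpecUpTop
import Fermat.Agent.LT.T7.H561.BlocksSpec
import Fermat.Agent.LT.T7.H561.OpsSpec
import Fermat.Agent.LT.T7.H431.Asm
import Fermat.Agent.LT.T7.H362.ChangeClosed
import Fermat.Agent.LT.T7.H719.Atoms
import Fermat.Agent.LT.T7.H271.Phi
import Fermat.Agent.LT.T7.H812.Stable
import Fermat.Agent.LT.T7.H49.OpsRel
import Fermat.Agent.LT.T7.H176.OpsAdj
import Fermat.Agent.LT.T7.H176.OpsComm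
import Fermat.Agent.LT.T7.H510.OpsLink
import Fermat.Agent.LT.T7.H510.IwSysExists
import Fermat.Agent.LT.T7.H389.Sigma
import Fermat.Agent.LT.T7.H313.OffW
import Fermat.Agent.LT.T7.H157.BlocksAsm
import Fermat.Agent.LT.T7.H49.OpsPer
import Fermat.Agent.LT.T7.H49.OpsSig
import Fermat.Agent.LT.T7.H49.OpsEig
import Fermat.Agent.LT.T7.H938.Complete
import Fermat.Agent.LT.T7.H49.BadOpTop
import Fermat.Agent.LT.T7.H144.WSpecTop
import Fermat.Agent.LT.T7.H130.ClassFin
import Fermat.Agent.LT.T7.H312.EigSpan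
import Fermat.Agent.LT.T7.H44.IwTransl
import Fermat.Agent.LT.T7.H618.ClassBasis
import Fermat.Agent.LT.T7.H561.NonVanClosed

/-!
# Row LT, tower T7, node T7.L2.2 (helper561): INTEGRATION of the closed leaves (v6, 17:20Z): THE NODE IS CLOSED

OFF-MAIN.  Every proof is complete, nothing assumed.  The closed leaves are vendored
byte-identical and rebuilt: `AsmC561` (helper431 `asmC431`), `ChangeC561` (helper362
`changeC362`), `AtomsC561` (helper719 `atomsC719`), `PhiC561` (helper271 `phiC271`),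
`StableC561` (helper812 `stableC812`), `StfC561` (the field `stf` of the closed tower T5:
helper32 `tower_up32`), `OpsRelC561` (helper49 `opsRelC49`), `OpsAdjC561`, `OpsCommC561`
(helper176 `opsAdjC176` on `T1.t1Out`, `opsCommC176`), `OpsLinkC561`, `IwSysExistsC561`
(helper510 `opsLinkC_h510`, `iwSysExistsC_h510`), `SigmaC561` (helper389 `sigmaC389`),
`OffWC561` (helper313 `offWC313`), `BlocksAsmC561` (helper157 `blocksAsmC157`), `OpsPerC561`,
`OpsSigC561` (helper49 `opsPerC49`, `opsSigC49`), `OpsEigC561` (helper49 `opsEigC49`),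
`CompleteC561` (helper938 `completeC938`), `BadOpC561` (helper49 `badOpC49`), `WSpecC561` (the
top `wSpecC_of144` of helper144 on W1 `classFinC130` (helper130), W2 `eigSpanC312` (helper312),
W3 `iwTranslC44` (helper44), W4 `classBasisC618` (helper618)).

`NonVanC561`: `nonVanC_closed561` (`T7/H561/NonVanClosed.lean`: helper817 `nonVanC561_open817`
with its six leaves closed).

    specUpSC_open561   : NonVanC561 K K' → T7.SpecUpSC K K'
    specUpSC_closed561 : T7.SpecUpSC K K'                       (UNCONDITIONAL, cyclic step)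
-/

set_option autoImplicit false

open AutomorphicForm IsDedekindDomain NumberField MeasureTheory

noncomputable section

namespace Fermat.Agent.LT.T7.H561

open Fermat.Agent.LT.H556 Fermat.Agent.LT.H556.A0 Fermat.Agent.LT.T7

variable {K K' : Type} [Field K] [NumberField K] [Field K'] [NumberField K'] [Algebra K K']

/-- `StfC561` CLOSED: the field `stf` of the closed tower T5. -/
theorem stfC_closed561 : StfC561 K K' :=
  fun D hD => (Fermat.Agent.LT.T7.H32.tower_up32 D hD).stf

/-- `WSpecC561` CLOSED: the cut of helper144 with its four closed sub-leaves. -/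
theorem wSpecC_closed561 : WSpecC561 K K' :=
  Fermat.Agent.LT.T7.H144W.wSpecC_of144 (Fermat.Agent.LT.T7.H130.classFinC130 K')
    (Fermat.Agent.LT.T7.H312.eigSpanC312 K') (Fermat.Agent.LT.T7.H44.iwTranslC44 K')
    (Fermat.Agent.LT.T7.H618.classBasisC618 K')

/-- `OpsC561` CLOSED (all the nine leaves). -/
theorem opsC_open561 : OpsC561 K K' :=
  opsC_of561 (Fermat.Agent.LT.T7.H510.iwSysExistsC_h510 K K')
    (Fermat.Agent.LT.T7.H49.opsEigC49 K K')
    (Fermat.Agent.LT.T7.H49.opsRelC49 K K') Fermat.Agent.LT.T7.H176.opsCommC176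
    (Fermat.Agent.LT.T7.H49.opsPerC49 K K')
    (Fermat.Agent.LT.T7.H176.opsAdjC176 (Fermat.Agent.LT.T1.t1Out K').adNorm)
    (Fermat.Agent.LT.T7.H49.opsSigC49 K K')
    (Fermat.Agent.LT.T7.H510.opsLinkC_h510 K K') (Fermat.Agent.LT.T7.H49.badOpC49 K K')

/-- `BlocksC561` CLOSED. -/
theorem blocksC_open561 : BlocksC561 K K' :=
  blocksC_of561 (Fermat.Agent.LT.T7.H157.blocksAsmC157 K K') wSpecC_closed561
    (Fermat.Agent.LT.T7.H938.completeC938 K K')
    (Fermat.Agent.LT.T7.H389.sigmaC389 (K := K) (K' := K')) opsC_open561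
    (Fermat.Agent.LT.T7.H271.phiC271 K K') (Fermat.Agent.LT.T7.H313.offWC313 K K')

/-- **`T7.SpecUpSC` from the open leaves.** -/
theorem specUpSC_open561 (hN : NonVanC561 K K') : SpecUpSC K K' :=
  specUpSC_of561 (Fermat.Agent.LT.T7.H812.stableC812 K K') Fermat.Agent.LT.T7.H431.asmC431
    stfC_closed561 blocksC_open561 hN
    (Fermat.Agent.LT.T7.H362.changeC362 K') Fermat.Agent.LT.T7.H719.atomsC719

/-- **THE NODE `T7.SpecUpSC` (cyclic step), CLOSED, UNCONDITIONAL.** -/
theorem specUpSC_closed561 : SpecUpSC K K' :=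
  specUpSC_open561 nonVanC_closed561

end Fermat.Agent.LT.T7.H561

end
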