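import Mathlib
import Fermat.Agent.LT.T7.H675.BlocksU
import Fermat.Agent.LT.T7.H144.WSpecTop
import Fermat.Agent.LT.T7.H130.ClassFin
import Fermat.Agent.LT.T7.H312.EigSpan
import Fermat.Agent.LT.T7.H44.IwTransl
import Fermat.Agent.LT.T7.H618.ClassBasis

/-!
# Row LT, tower T7, leaf T7.L2.2c.B1 = W-SPEC in CORE FORM (helper561, spare of row 2501): CLOSED

OFF-MAIN.  Every proof is complete, nothing assumed.  ADDITIVE (new names only, ending in `561`).

    wSpecUC_of561     : ClassFinC144 K' → EigSpanC144 K' → IwTranslC144 K' → ClassBasisC144 K'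
                          → UB675.WSpecUC675 K'
    wSpecUC_closed561 : UB675.WSpecUC675 K'          (form of record of helper675, `BlocksU.lean`)

The proof is the proof of the top `wSpecC_of144` of helper144 (`T7/H144/WSpecTop.lean`) read on
`H29.UpData` (`TotCplx K'` is a hypothesis of the core form; `level_ne`, `level_g`, `frame'`,
`mem_S'`, `orbit_level` are fields of `H29.IsUpData`); the four sub-leaves are statements about
ONE field and are closed: W1 `classFinC130` (helper130), W2 `eigSpanC312` (helper312),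
W3 `iwTranslC44` (helper44), W4 `classBasisC618` (helper618).
-/

set_option autoImplicit false
set_option linter.unusedSectionVars false
set_option linter.unusedVariables false
set_option linter.style.haveILetI false

open AutomorphicForm IsDedekindDomain NumberField MeasureTheory
open scoped ComplexConjugate

noncomputable section

namespace Fermat.Agent.LT.T7.H561

open Fermat.Agent.LT.H556 Fermat.Agent.LT.H556.A0 Fermat.Agent.LT Fermat.Agent.LT.T7

attribute [local instance] Fermat.Agent.LT.T5.instMeasurableSpaceG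

section WSpecU

variable {K' : Type} [Field K'] [NumberField K']

/-- **W-SPEC in core form from the four sub-leaves of helper144.** -/
theorem wSpecUC_of561 (hCF : H144W.ClassFinC144 K') (hES : H144W.EigSpanC144 K')
    (hIW : H144W.IwTranslC144 K') (hCB : H144W.ClassBasisC144 K') : UB675.WSpecUC675 K' := by
  classical
  intro ℓ _ hcx Φ _ Dt hDt
  -- the bad element `1`
  have hbad1 : Dt.IsBad (1 : G K') :=
    ⟨fun w => (H129.trivAtInf_iff129 w 1).2 (map_one _),
      fun v _ => (H129.trivAtFin_iff129 v 1).2 (map_one _)⟩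
  have hR : IsFrame5 Dt.R' := hDt.frame'
  have hne : Dt.𝔑 1 ≠ ⊥ := hDt.level_ne 1 hbad1
  have h𝔑 : Dt.𝔑₀ ≠ ⊥ := by
    intro h
    have h1 := hDt.level_g 1 hbad1
    rw [h] at h1
    exact hne (le_bot_iff.1 h1)
  have horb : ∀ j < ℓ, (Dt.o j).asIdeal ∣ Dt.𝔑₀ :=
    fun j _ => (hDt.mem_S' _).1 (hDt.orbit_level j)
  -- the eigenbasis of T2
  obtain ⟨ι₀, u, m, a, b, hB⟩ :=
    T2.cuspSpecPlus_closed K' Dt.𝔑₀ h𝔑 (T2.frameOf130 Dt.R' hR)
  have hW := T2.isWBasis_of_plus130 hcx h𝔑 Dt.R' hR Dt.o hB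
  set C₀ : ι₀ → EigData K' := fun j => ⟨a j, b j, m j⟩ with hC₀
  have hSdvd : ∀ v : HeightOneSpectrum (𝓞 K'), v.asIdeal ∣ Dt.𝔑₀ → v ∈ Dt.S' :=
    fun v hv => (hDt.mem_S' v).2 hv
  -- the classes are finite
  have hfin : ∀ j₀ : ι₀, {j : ι₀ | (C₀ j).AgreeOut Dt.S' (C₀ j₀)}.Finite := fun j₀ =>
    (hCF hcx Dt.𝔑₀ h𝔑 _ ι₀ u m a b hB j₀).subset fun j hj w d hd => hj.2 w d hd
  -- the quotient
  let st : Setoid ι₀ :=
    ⟨fun j j' => (C₀ j).AgreeOut Dt.S' (C₀ j'),
      ⟨fun j => H144W.agreeOut_refl144 _ _, H144W.agreeOut_symm144, H144W.agreeOut_trans144⟩⟩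
  have hst : ∀ j j' : ι₀, st.r j j' ↔ (C₀ j).AgreeOut Dt.S' (C₀ j') := fun _ _ => Iff.rfl
  set J : Quotient st → Finset ι₀ := fun q => (hfin q.out).toFinset with hJ
  have hJmem : ∀ (q : Quotient st) (j : ι₀), j ∈ J q ↔ (C₀ j).AgreeOut Dt.S' (C₀ q.out) :=
    fun q j => (hfin q.out).mem_toFinset
  have hJmk : ∀ (q : Quotient st) (j : ι₀), j ∈ J q ↔ Quotient.mk st j = q := by
    intro q j
    rw [hJmem]
    constructor
    · intro h
      have h1 : Quotient.mk st j = Quotient.mk st q.out := Quotient.sound h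
      rw [h1, Quotient.out_eq]
    · intro h
      have h1 : Quotient.mk st j = Quotient.mk st q.out := by rw [h, Quotient.out_eq]
      exact Quotient.exact h1
  -- the bases of the classes
  have key := fun q : Quotient st =>
    hCB hES hIW hcx Dt.𝔑₀ h𝔑 Dt.R' hR ℓ Dt.o horb Dt.S' hDt.mem_S' ι₀ u C₀ hW q.out (J q)
      (hJmem q)
  choose n v hv using key
  refine ⟨Quotient st, n, fun q => C₀ q.out, v, ?_⟩
  have hr := hR.ray
  refine
    { countable := ?_
      unitary := fun q => hW.unitary q.out Dt.S' hSdvd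
      distinct := ?_
      basis := fun q => ⟨(hv q).1, (hv q).2.1, (hv q).2.2.1⟩
      orth := ?_
      complete := ?_
      cover := ?_ }
  · haveI := hW.countable
    exact (Quotient.mk_surjective (s := st)).countable
  · intro q q' h
    have h1 : Quotient.mk st q.out = Quotient.mk st q'.out := Quotient.sound h
    rwa [Quotient.out_eq, Quotient.out_eq] at h1
  · intro q q' x x' hqq
    refine (hv q).2.2.2.1 x (v q' x') (H144W.isWFn_zero_of144 hr ((hv q').1 x').inv) ?_
    intro j hj
    rw [H144W.innerD_conj144]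
    have h0 : T5.innerD Dt.R'.μ Dt.R'.F (v q' x') (u j) = 0 := by
      refine (hES hcx Dt.𝔑₀ h𝔑 Dt.R' hR Dt.o ι₀ u C₀ hW Dt.S' hSdvd (v q' x') (C₀ q'.out)
        (H144W.isEigFn_zero_of144 hr ((hv q').1 x'))).1 j ?_
      intro hag
      apply hqq
      have h1 : Quotient.mk st j = q := (hJmk q j).1 hj
      have h2 : Quotient.mk st j = q' := (hJmk q' j).1 ((hJmem q' j).2 (H144W.agreeOut_symm144 hag))
      rw [← h1, h2]
    rw [h0, map_zero]
  · intro ψ hψ
    have hψ0 := H144W.isWFn_zero_of144 hr hψ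
    have hpar := hW.parseval ψ hψ0
    set f : ι₀ → ℝ := fun j => ‖T5.innerD Dt.R'.μ Dt.R'.F ψ (u j)‖ ^ 2 with hf
    set N : ℝ := (T5.innerD Dt.R'.μ Dt.R'.F ψ ψ).re with hN
    set h : (Σ q : Quotient st, Fin (n q)) → ℝ :=
      fun p => ‖T5.innerD Dt.R'.μ Dt.R'.F ψ (v p.1 p.2)‖ ^ 2 with hh
    -- grouping by classes
    have hset : ∀ q : Quotient st, (Quotient.mk st ⁻¹' {q}) = ((J q : Finset ι₀) : Set ι₀) := by
      intro q
      ext j
      simp only [Set.mem_preimage, Set.mem_singleton_iff, Finset.mem_coe]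
      exact (hJmk q j).symm
    have hA : HasSum (fun q : Quotient st => ∑ j ∈ J q, f j) N := by
      have h1 := hpar.tsum_fiberwise (Quotient.mk st)
      have hfun : (fun q : Quotient st => ∑' b : ↥(Quotient.mk st ⁻¹' {q}), f b)
          = fun q : Quotient st => ∑ j ∈ J q, f j := by
        funext q
        rw [tsum_congr_set_coe f (hset q), Finset.tsum_subtype']
      rw [hfun] at h1
      exact h1
    have hg : ∀ q : Quotient st, ∑ x : Fin (n q), h ⟨q, x⟩ = ∑ j ∈ J q, f j :=
      fun q => (hv q).2.2.2.2 ψ hψ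
    have hA' : HasSum (fun q : Quotient st => ∑ x : Fin (n q), h ⟨q, x⟩) N := by
      have hfun : (fun q : Quotient st => ∑ x : Fin (n q), h ⟨q, x⟩)
          = fun q : Quotient st => ∑ j ∈ J q, f j := funext hg
      rw [hfun]
      exact hA
    have hfib : ∀ q : Quotient st,
        HasSum (fun x : Fin (n q) => h ⟨q, x⟩) (∑ x : Fin (n q), h ⟨q, x⟩) :=
      fun q => hasSum_fintype _
    have hsum : Summable h := by
      refine (summable_sigma_of_nonneg (fun p => by positivity)).2
        ⟨fun q => (hfib q).summable, ?_⟩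
      have hfun : (fun q : Quotient st => ∑' x : Fin (n q), h ⟨q, x⟩)
          = fun q : Quotient st => ∑ x : Fin (n q), h ⟨q, x⟩ :=
        funext fun q => tsum_fintype _
      rw [hfun]
      exact hA'.summable
    exact hA'.sigma_of_hasSum hfib hsum
  · intro ψ C' hψ hne0
    by_contra hcon
    push Not at hcon
    obtain ⟨x, hx⟩ := hne0
    apply hx
    have h1 := (hES hcx Dt.𝔑₀ h𝔑 Dt.R' hR Dt.o ι₀ u C₀ hW Dt.S' hSdvd ψ C'
      (H144W.isEigFn_zero_of144 hr hψ)).2 ∅ (fun j hj => absurd ?_ (hcon (Quotient.mk st j))) x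
    · rw [h1, Finset.sum_empty]
    · have h2 : st.r (Quotient.mk st j).out j := Quotient.exact (Quotient.out_eq _)
      exact H144W.agreeOut_trans144 hj (H144W.agreeOut_symm144 ((hst _ _).1 h2))


variable (K')

/-- **LEAF T7.L2.2c.B1 = W-SPEC, CORE FORM of record, CLOSED.** -/
theorem wSpecUC_closed561 : UB675.WSpecUC675 K' :=
  wSpecUC_of561 (Fermat.Agent.LT.T7.H130.classFinC130 K')
    (Fermat.Agent.LT.T7.H312.eigSpanC312 K') (Fermat.Agent.LT.T7.H44.iwTranslC44 K')
    (Fermat.Agent.LT.T7.H618.classBasisC618 K')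

end WSpecU

end Fermat.Agent.LT.T7.H561

end
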