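import Mathlib
import Fermat.Agent.LT.T5.Closed
import Fermat.Agent.LT.T7.H736.Core.Top
import Fermat.Agent.LT.T7.H736.Core.Glue
import Fermat.Agent.LT.T7.H736.Port.All
import Fermat.Agent.LT.T7.H675.LeavesU1
import Fermat.Agent.LT.T7.H675.LeavesU2
import Fermat.Agent.LT.T7.H49.CoreOps
import Fermat.Agent.LT.T7.H865.CompleteClosed
import Fermat.Agent.LT.T7.H963.CoreCM
import Fermat.Agent.LT.T7.H362.ChangeClosed
import Fermat.Agent.LT.T7.H719.Atoms
import Fermat.Agent.LT.T7.H701.IwSys
import Fermat.Agent.LT.T7.H812.StableAut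
import Fermat.Agent.LT.T7.H561.WSpecU

/-!
# Row LT, tower T7, node T7.L2.2 SPEC-UP in CORE FORM (helper561, integrator): CLOSED

OFF-MAIN.  Every proof is complete, nothing assumed.  ADDITIVE (new names only, ending in `561`).
The tops of helper736 (`T7/H736/Core/*.lean`, `T7/H736/UpS.lean`) and of helper29
(`T7/H29/UpCore2.lean`) with EVERY leaf in core form closed and plugged in ONE import closure:

* `stf` : the field `stf` of the closed tower T5 (`T5.tower_closed`);
* `change` : helper362 `changeC362`; `atoms` : helper719 `atomsC719`; `iwsys` : helper701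
  `iwSysC701`;
* Blocks: `blocksAsm` helper736 `PU736.blocksAsmC_core` (port of helper157), `wSpec`
  `wSpecUC_closed561` (`T7/H561/WSpecU.lean`), `complete` helper865 `completeUC865_closed`,
  `sigma` helper736 `PU736.sigmaC_core`, `phi` helper675 `phiUC675_closed`, `offW` helper736
  `PU736.offWC_core` (port of helper313);
* Ops: `iwSysExists`, `opsComm`, `opsAdj`, `opsLink` helper675 (`LeavesU1`, `LeavesU2`),
  `opsEig`, `opsRel`, `opsPer`, `opsSig`, `badOp` helper49 (`CoreOps.lean`);
* non-vanishing: helper963 `nonVanCoreC963` (`T7/H963/CoreCM.lean`);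
* the glue between the three retypings: helper736 `GL736` (`Core/Glue.lean`).

    specUpCoreSC_closed561 (K') : H29.SpecUpCoreSC K'
    specUpQSC_closed561 (F)     : H29.SpecUpQSC F            (THE STEP `F / ℚ`)
    specUpSC_core_closed561     : T7.SpecUpSC K K'           (the cyclic step, from the core form)
-/

set_option autoImplicit false

open AutomorphicForm IsDedekindDomain NumberField MeasureTheory

noncomputable section

namespace Fermat.Agent.LT.T7.H561

open Fermat.Agent.LT.H556 Fermat.Agent.LT.H556.A0 Fermat.Agent.LT.T7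

section Core

variable (K' : Type) [Field K'] [NumberField K']

/-- `StfUC` CLOSED: the field `stf` of the closed tower T5. -/
theorem stfUC_closed561 : SU736.StfUC K' :=
  fun s l k 𝔑 h𝔑 hcyc => (Fermat.Agent.LT.T5.tower_closed s l k 𝔑 T5.trivType h𝔑 hcyc).stf

/-- The node `OpsC561`, core form, CLOSED. -/
theorem opsCU_closed561 : CU736.OpsC561 K' :=
  CU736.opsC_of561 (GL736.iwSysExists_r_cu (UB675.iwSysExistsUC675_closed K'))
    (H49.opsEigCU49 K') (H49.opsRelCU49 K')
    (GL736.opsComm_r_cu (UB675.opsCommUC675_closed K')) (H49.opsPerCU49 K')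
    (GL736.opsAdj_r_cu (UB675.opsAdjUC675_closed K')) (H49.opsSigCU49 K')
    (GL736.opsLink_r_cu (UB675.opsLinkUC675_closed K')) (H49.badOpCU49 K')

/-- The node `BlocksC561`, core form, CLOSED. -/
theorem blocksCU_closed561 : CU736.BlocksC561 K' :=
  CU736.blocksC_of561 (PU736.blocksAsmC_core K') (GL736.wSpec_r_cu (wSpecUC_closed561 K'))
    (GL736.complete_r_cu (GL736.complete_d_r (H865.completeUC865_closed K')))
    (PU736.sigmaC_core K') (opsCU_closed561 K')
    (GL736.phi_r_cu (UB675.phiUC675_closed K')) (PU736.offWC_core K')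

/-- The core node `H29.ExpUpCoreC`, CLOSED. -/
theorem expUpCoreC_closed561 : H29.ExpUpCoreC K' :=
  CU736.expUpCoreC_of_blocks (stfUC_closed561 K') (blocksCU_closed561 K')
    (H362.changeC362 K') H719.atomsC719 (PU736.sigmaC_core K') (H701.iwSysC701 K')

/-- **SPEC-UP, CORE FORM, CLOSED, UNCONDITIONAL.** -/
theorem specUpCoreSC_closed561 : H29.SpecUpCoreSC K' :=
  H29.specUpCoreSC_of (expUpCoreC_closed561 K') (H963.nonVanCoreC963 K')

/-- **THE STEP `F / ℚ`: the upstairs node of the quadratic step, CLOSED, UNCONDITIONAL.** -/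
theorem specUpQSC_closed561 : H29.SpecUpQSC K' :=
  H29.specUpQSC_of_core (specUpCoreSC_closed561 K')

end Core

section Cyclic

variable (K K' : Type) [Field K] [NumberField K] [Field K'] [NumberField K'] [Algebra K K']

/-- **THE CYCLIC STEP from the core form**: the node of record `T7.SpecUpSC`, CLOSED. -/
theorem specUpSC_core_closed561 : T7.SpecUpSC K K' :=
  SU736.specUpSC_of736 (H812.stableAutC812 K K')
    (H29.specUpCS_of_core (specUpCoreSC_closed561 K'))

end Cyclic

end Fermat.Agent.LT.T7.H561

end
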