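import Mathlib
import Fermat.Agent.LT.T7.P51.ProdMtSpec

/-!
# Row LT, tower T7, node T7.L2.1.H2b `ProdMtCb`, LEAF P.L3 = `RegArchC51` (helper561): PROVED

OFF-MAIN.  Every proof is complete, nothing assumed.  ADDITIVE (new names only, ending in `561`).
Statement of record: `T7/P51/ProdMtSpec.lean` (helper51, sha256 4b4a6c6c), byte-identical copy.

    regArchC561 (K K') : P51.RegArchC51 K K'

Proof.  The components at infinity of the product are `T6.convInt μc (Φ₁ w) (Φ₂ w)` and
`T6.convInt μc (F₁ v) (F₂ v)` (shape `LocProd51`); the factors are continuous with compact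
support and invariant under the complex conjugation (`ArchOk893` of the two pairs: the clauses
`arch_up`, `arch_down` of the local hypotheses).  For a Haar measure `μ` of a locally compact
second countable Hausdorff group: the convolution of two continuous functions with compact
support is continuous (`continuousOn_integral_of_compact_support`) with support in the product
of the supports; a Haar measure is invariant under a continuous involutive automorphism
(`mulEquivHaarChar`: the scalar is a positive square root of `1`), so the convolution of two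
invariant functions is invariant.
-/

set_option autoImplicit false
set_option linter.unusedSectionVars false
set_option linter.style.haveILetI false

open AutomorphicForm IsDedekindDomain NumberField MeasureTheory Topology
open scoped ComplexConjugate Pointwise

noncomputable section

namespace Fermat.Agent.LT.T7.H561

open Fermat.Agent.LT.H556 Fermat.Agent.LT.H556.A0 Fermat.Agent.LT.T7
open Fermat.Agent.LT.T7.H305 Fermat.Agent.LT.T7.H893

/-! ## 1. Convolution on a locally compact group (Mathlib only) -/

section General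

variable {H : Type} [Group H] [TopologicalSpace H] [IsTopologicalGroup H]
  [MeasurableSpace H] [BorelSpace H]

theorem continuous_convInt561 (μ : Measure H) [IsFiniteMeasureOnCompacts μ] {f g : H → ℂ}
    (hf : Continuous f) (hfs : HasCompactSupport f) (hg : Continuous g) :
    Continuous (T6.convInt μ f g) := by
  have h1 : ContinuousOn (Function.uncurry fun (x : H) (h : H) => f h * g (h⁻¹ * x))
      (Set.univ ×ˢ Set.univ) := by
    apply Continuous.continuousOn
    exact (hf.comp continuous_snd).mul
      (hg.comp ((continuous_snd.inv).mul continuous_fst))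
  have h2 := continuousOn_integral_of_compact_support (μ := μ) (s := Set.univ) hfs h1
    (fun p x _ hx => by
      have : f x = 0 := image_eq_zero_of_notMem_tsupport hx
      simp [this])
  exact continuousOn_univ.1 h2

theorem hasCompactSupport_convInt561 (μ : Measure H) {f g : H → ℂ}
    (hfs : HasCompactSupport f) (hgs : HasCompactSupport g) :
    HasCompactSupport (T6.convInt μ f g) := by
  have hK : IsCompact (tsupport f * tsupport g) := hfs.isCompact.mul hgs.isCompact
  refine HasCompactSupport.intro hK fun x hx => ?_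
  show ∫ h, f h * g (h⁻¹ * x) ∂μ = 0
  refine integral_eq_zero_of_ae (Filter.Eventually.of_forall fun h => ?_)
  by_cases h1 : h ∈ tsupport f
  · by_cases h2 : h⁻¹ * x ∈ tsupport g
    · exact absurd ⟨h, h1, h⁻¹ * x, h2, by simp⟩ hx
    · have : g (h⁻¹ * x) = 0 := image_eq_zero_of_notMem_tsupport h2
      simp [this]
  · have : f h = 0 := image_eq_zero_of_notMem_tsupport h1
    simp [this]

/-- A regular Haar measure is invariant under a continuous involutive automorphism. -/
theorem map_invol_eq561 [LocallyCompactSpace H] (μ : Measure H) [μ.IsHaarMeasure] [μ.Regular]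
    (c : H ≃ₜ* H) (hc : ∀ x, c (c x) = x) : μ.map c = μ := by
  have h1 : mulEquivHaarChar (c.trans c) = 1 := by
    have : c.trans c = ContinuousMulEquiv.refl H := by
      ext x
      exact hc x
    rw [this, mulEquivHaarChar_refl]
  rw [mulEquivHaarChar_trans] at h1
  have h2 : mulEquivHaarChar c = 1 := by
    have h3 : (mulEquivHaarChar c) ^ 2 = 1 := by rw [pow_two]; exact h1
    exact (pow_eq_one_iff_of_nonneg zero_le two_ne_zero).1 h3
  have h4 := mulEquivHaarChar_smul_map μ c
  rw [h2, one_smul] at h4
  exact h4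

theorem convInt_invol561 [LocallyCompactSpace H] (μ : Measure H) [μ.IsHaarMeasure] [μ.Regular]
    (c : H ≃ₜ* H) (hc : ∀ x, c (c x) = x) {f g : H → ℂ}
    (hfc : ∀ x, f (c x) = f x) (hgc : ∀ x, g (c x) = g x) (x : H) :
    T6.convInt μ f g (c x) = T6.convInt μ f g x := by
  have hm := map_invol_eq561 μ c hc
  show ∫ h, f h * g (h⁻¹ * c x) ∂μ = ∫ h, f h * g (h⁻¹ * x) ∂μ
  calc ∫ h, f h * g (h⁻¹ * c x) ∂μ
      = ∫ h, f h * g (h⁻¹ * c x) ∂(μ.map c) := by rw [hm]
    _ = ∫ h, f (c h) * g ((c h)⁻¹ * c x) ∂μ :=
        integral_map_equiv c.toHomeomorph.toMeasurableEquiv _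
    _ = ∫ h, f h * g (h⁻¹ * x) ∂μ := by
        refine integral_congr_ae (Filter.Eventually.of_forall fun h => ?_)
        simp only
        rw [hfc, ← map_inv, ← map_mul, hgc]

end General

/-! ## 2. The group `GL₂(ℂ)` -/

section GL2C

theorem secondCountable_GL2C561 : SecondCountableTopology (GL (Fin 2) ℂ) := by
  have : SecondCountableTopology (Matrix (Fin 2) (Fin 2) ℂ) :=
    inferInstanceAs (SecondCountableTopology (Fin 2 → Fin 2 → ℂ))
  have : SecondCountableTopology (Matrix (Fin 2) (Fin 2) ℂ)ᵐᵒᵖ :=
    MulOpposite.opHomeomorph.symm.secondCountableTopology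
  exact (Units.isEmbedding_embedProduct (M := Matrix (Fin 2) (Fin 2) ℂ)).secondCountableTopology

theorem locallyCompact_GL2C561 : LocallyCompactSpace (GL (Fin 2) ℂ) := by
  have : LocallyCompactSpace (Matrix (Fin 2) (Fin 2) ℂ) :=
    inferInstanceAs (LocallyCompactSpace (Fin 2 → Fin 2 → ℂ))
  exact (Units.isClosedEmbedding_embedProduct (α := Matrix (Fin 2) (Fin 2) ℂ)).locallyCompactSpace

theorem continuous_conjGL561 : Continuous (conjGL305 : GL (Fin 2) ℂ → GL (Fin 2) ℂ) := by
  have h : Continuous (fun M : Matrix (Fin 2) (Fin 2) ℂ => M.map (starRingEnd ℂ)) :=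
    Continuous.matrix_map continuous_id Complex.continuous_conj
  have h' : Continuous ((RingHom.mapMatrix (starRingEnd ℂ)).toMonoidHom :
      Matrix (Fin 2) (Fin 2) ℂ →* Matrix (Fin 2) (Fin 2) ℂ) := h
  exact Continuous.units_map _ h'

theorem conjGL_conjGL561 (x : GL (Fin 2) ℂ) : conjGL305 (conjGL305 x) = x := by
  apply Units.ext
  ext i j
  simp [conjGL305, Matrix.GeneralLinearGroup.map]

/-- The complex conjugation of `GL₂(ℂ)` as a continuous automorphism. -/
def conjEquiv561 : GL (Fin 2) ℂ ≃ₜ* GL (Fin 2) ℂ where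
  toFun := conjGL305
  invFun := conjGL305
  left_inv := conjGL_conjGL561
  right_inv := conjGL_conjGL561
  map_mul' := map_mul conjGL305
  continuous_toFun := continuous_conjGL561
  continuous_invFun := continuous_conjGL561

/-- **Convolution of two continuous functions with compact support on `GL₂(ℂ)` which are
invariant under the complex conjugation.** -/
theorem regArch_conv561 (μc : @Measure (GL (Fin 2) ℂ) (borel _))
    (hμ : @Measure.IsHaarMeasure _ _ _ (borel _) μc) {f g : GL (Fin 2) ℂ → ℂ}
    (hf : Continuous f ∧ HasCompactSupport f ∧ ∀ x : GL (Fin 2) ℂ, f (conjGL305 x) = f x)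
    (hg : Continuous g ∧ HasCompactSupport g ∧ ∀ x : GL (Fin 2) ℂ, g (conjGL305 x) = g x) :
    Continuous (@T6.convInt _ _ (borel _) μc f g) ∧
      HasCompactSupport (@T6.convInt _ _ (borel _) μc f g) ∧
      ∀ x : GL (Fin 2) ℂ,
        @T6.convInt _ _ (borel _) μc f g (conjGL305 x) = @T6.convInt _ _ (borel _) μc f g x := by
  letI : MeasurableSpace (GL (Fin 2) ℂ) := borel _
  haveI : BorelSpace (GL (Fin 2) ℂ) := ⟨rfl⟩
  haveI := secondCountable_GL2C561
  haveI := locallyCompact_GL2C561
  haveI : μc.IsHaarMeasure := hμ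
  haveI : μc.Regular := inferInstance
  exact ⟨continuous_convInt561 μc hf.1 hf.2.1 hg.1, hasCompactSupport_convInt561 μc hf.2.1 hg.2.1,
    fun x => convInt_invol561 μc conjEquiv561 conjGL_conjGL561 hf.2.2 hg.2.2 x⟩

end GL2C

/-! ## 3. The leaf -/

section Leaf

variable (K K' : Type) [Field K] [NumberField K] [Field K'] [NumberField K'] [Algebra K K']

/-- **LEAF P.L3 = REG-ARCH** of the cut of `H893.ProdMtCb` (helper51), VERBATIM,
UNCONDITIONAL. -/
theorem regArchC561 : Fermat.Agent.LT.T7.P51.RegArchC51 K K' := by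
  intro ℓ Φ B g 𝔫 μc T₀ n n₀ m H' z' H z t k j T φ₀ Φ' f₀ F hloc
  obtain ⟨hctx, -, -, hprod⟩ := hloc
  obtain ⟨T₁, T₂, φ₁, Φ₁, f₁, F₁, φ₂, Φ₂, f₂, F₂, -, -, -, hA, hB, -, -, -, -, -, hinfU, hinfD⟩ :=
    hprod
  have hA' : ArchOk893 (B.comp 𝔫) μc n m φ₁ Φ₁ f₁ F₁ := hA.2.2.2
  have hB' : ArchOk893 (B.comp 𝔫) μc n m φ₂ Φ₂ f₂ F₂ := hB.2.2.2.2.2
  refine ⟨fun w => ?_, fun v => ?_⟩
  · rw [hinfU w]
    exact regArch_conv561 μc hctx.haar (hA'.1.arch_up w) (hB'.1.arch_up w)
  · rw [hinfD v]
    exact regArch_conv561 μc hctx.haar (hA'.1.arch_down v) (hB'.1.arch_down v)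

end Leaf

end Fermat.Agent.LT.T7.H561

end
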